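import Fermat.Agent.LP.Dep.Defs

/-!
# LP-DEP: basic API of `CongP` and `Dep`
-/

set_option autoImplicit false

namespace Fermat.Agent.LP.Dep

open Fermat.Agent.GR.E

variable {R L F : Type*} [CommRing R] [IsDomain R] [IsDiscreteValuationRing R]
  [Field L] [Algebra R L] [IsFractionRing R L] [Field F] [Algebra R F] [Algebra L F]
  [IsScalarTower R L F]
variable {ϖ : R} {𝒪 : ValuationSubring F} {p e1 : ℕ} {lam : R}

theorem CongP.refl (i : ℕ) (x : F) : CongP ϖ 𝒪 i x x := by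
  unfold CongP
  rw [sub_self, zero_div]
  exact 𝒪.zero_mem

theorem CongP.symm {i : ℕ} {x y : F} (h : CongP ϖ 𝒪 i x y) : CongP ϖ 𝒪 i y x := by
  unfold CongP at h ⊢
  have h1 := 𝒪.neg_mem _ h
  have h2 : (y - x) / algebraMap R F ϖ ^ i = -((x - y) / algebraMap R F ϖ ^ i) := by ring
  rw [h2]
  exact h1

theorem CongP.trans {i : ℕ} {x y z : F} (h : CongP ϖ 𝒪 i x y) (h' : CongP ϖ 𝒪 i y z) :
    CongP ϖ 𝒪 i x z := by
  unfold CongP at h h' ⊢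
  have h2 : (x - z) / algebraMap R F ϖ ^ i =
      (x - y) / algebraMap R F ϖ ^ i + (y - z) / algebraMap R F ϖ ^ i := by ring
  rw [h2]
  exact 𝒪.add_mem _ _ h h'

theorem CongP.add {i : ℕ} {x y x' y' : F} (h : CongP ϖ 𝒪 i x y) (h' : CongP ϖ 𝒪 i x' y') :
    CongP ϖ 𝒪 i (x + x') (y + y') := by
  unfold CongP at h h' ⊢
  have h2 : (x + x' - (y + y')) / algebraMap R F ϖ ^ i =
      (x - y) / algebraMap R F ϖ ^ i + (x' - y') / algebraMap R F ϖ ^ i := by ring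
  rw [h2]
  exact 𝒪.add_mem _ _ h h'

theorem CongP.mono (S : DepSetting ϖ 𝒪 p e1 lam) {i j : ℕ} (hij : j ≤ i) {x y : F}
    (h : CongP ϖ 𝒪 i x y) : CongP ϖ 𝒪 j x y := by
  unfold CongP at h ⊢
  obtain ⟨k, rfl⟩ := Nat.exists_eq_add_of_le hij
  have hP0 := S.gauss.ne_zero
  have h2 : (x - y) / algebraMap R F ϖ ^ j =
      (x - y) / algebraMap R F ϖ ^ (j + k) * algebraMap R F ϖ ^ k := by
    rw [pow_add]
    field_simp
  rw [h2]
  exact 𝒪.mul_mem _ _ h (𝒪.pow_mem S.gauss.mem k)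

theorem CongP.mem (S : DepSetting ϖ 𝒪 p e1 lam) {i : ℕ} {x y : F} (h : CongP ϖ 𝒪 i x y)
    (hy : y ∈ 𝒪) : x ∈ 𝒪 := by
  unfold CongP at h
  have hP0 := S.gauss.ne_zero
  have h2 : x = y + (x - y) / algebraMap R F ϖ ^ i * algebraMap R F ϖ ^ i := by
    field_simp
    ring
  rw [h2]
  exact 𝒪.add_mem _ _ hy (𝒪.mul_mem _ _ h (𝒪.pow_mem S.gauss.mem i))

theorem CongP.mul (S : DepSetting ϖ 𝒪 p e1 lam) {i : ℕ} {x y x' y' : F} (h : CongP ϖ 𝒪 i x y)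
    (h' : CongP ϖ 𝒪 i x' y') (hy : y ∈ 𝒪) (hy' : y' ∈ 𝒪) : CongP ϖ 𝒪 i (x * x') (y * y') := by
  have hx' : x' ∈ 𝒪 := h'.mem S hy'
  unfold CongP at h h' ⊢
  have h2 : (x * x' - y * y') / algebraMap R F ϖ ^ i =
      (x - y) / algebraMap R F ϖ ^ i * x' + y * ((x' - y') / algebraMap R F ϖ ^ i) := by ring
  rw [h2]
  exact 𝒪.add_mem _ _ (𝒪.mul_mem _ _ h hx') (𝒪.mul_mem _ _ hy h')

theorem CongP.pow (S : DepSetting ϖ 𝒪 p e1 lam) {i : ℕ} {x y : F} (h : CongP ϖ 𝒪 i x y)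
    (hy : y ∈ 𝒪) (n : ℕ) : CongP ϖ 𝒪 i (x ^ n) (y ^ n) := by
  induction n with
  | zero =>
    rw [pow_zero, pow_zero]
    exact CongP.refl i 1
  | succ n ih =>
    rw [pow_succ, pow_succ]
    exact ih.mul S h (𝒪.pow_mem hy n) hy

/-- `x ≡ 1` modulo `ϖ` is a unit of `𝒪`, and `x⁻¹ ≡ 1` to the same order. -/
theorem CongP.inv_one (S : DepSetting ϖ 𝒪 p e1 lam) {i : ℕ} (hi : 0 < i) {x : F}
    (h : CongP ϖ 𝒪 i x 1) : x ≠ 0 ∧ CongP ϖ 𝒪 i x⁻¹ 1 := by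
  have hx : x ∈ 𝒪 := h.mem S 𝒪.one_mem
  have hP0 := S.gauss.ne_zero
  obtain ⟨k, rfl⟩ : ∃ k, i = k + 1 := ⟨i - 1, by omega⟩
  have hnot : x / algebraMap R F ϖ ∉ 𝒪 := by
    intro hxP
    apply S.gauss.inv_not_mem
    have h2 : (algebraMap R F ϖ)⁻¹ = x / algebraMap R F ϖ -
        (x - 1) / algebraMap R F ϖ ^ (k + 1) * algebraMap R F ϖ ^ k := by
      rw [pow_succ]
      field_simp
      ring
    rw [h2]
    exact 𝒪.sub_mem hxP (𝒪.mul_mem _ _ h (𝒪.pow_mem S.gauss.mem k))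
  have hx0 : x ≠ 0 := by
    rintro rfl
    apply hnot
    rw [zero_div]
    exact 𝒪.zero_mem
  have hinv : x⁻¹ ∈ 𝒪 := (S.gauss.unif x hx).resolve_left hnot
  refine ⟨hx0, ?_⟩
  unfold CongP at h ⊢
  have h2 : (x⁻¹ - 1) / algebraMap R F ϖ ^ (k + 1) =
      -(x⁻¹ * ((x - 1) / algebraMap R F ϖ ^ (k + 1))) := by
    field_simp
    ring
  rw [h2]
  exact 𝒪.neg_mem _ (𝒪.mul_mem _ _ hinv h)

/-- `x ≡ y` modulo `ϖ ^ i` with `y ≡ 1` modulo `ϖ`: then `x / y ≡ 1` modulo `ϖ ^ i`. -/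
theorem CongP.div_one (S : DepSetting ϖ 𝒪 p e1 lam) {i : ℕ} {x y : F} (h : CongP ϖ 𝒪 i x y)
    (hy : CongP ϖ 𝒪 1 y 1) : CongP ϖ 𝒪 i (x / y) 1 := by
  obtain ⟨hy0, hyinv⟩ := hy.inv_one S one_pos
  have hinv : y⁻¹ ∈ 𝒪 := hyinv.mem S 𝒪.one_mem
  have hP0 := S.gauss.ne_zero
  unfold CongP at h ⊢
  have h2 : (x / y - 1) / algebraMap R F ϖ ^ i = y⁻¹ * ((x - y) / algebraMap R F ϖ ^ i) := by
    field_simp
  rw [h2]
  exact 𝒪.mul_mem _ _ hinv h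

/-- `𝒪 ∩ L = R`. -/
theorem exists_of_algebraMap_mem (S : DepSetting ϖ 𝒪 p e1 lam) {c : L}
    (hc : algebraMap L F c ∈ 𝒪) : ∃ r : R, algebraMap R L r = c := by
  rcases ValuationRing.isInteger_or_isInteger R c with ⟨r, hr⟩ | ⟨r, hr⟩
  · exact ⟨r, hr⟩
  by_cases hc0 : c = 0
  · exact ⟨0, by rw [map_zero, hc0]⟩
  by_cases hu : IsUnit r
  · obtain ⟨u, rfl⟩ := hu
    refine ⟨((u⁻¹ : Rˣ) : R), ?_⟩
    have h1 : algebraMap R L ((u⁻¹ : Rˣ) : R) * algebraMap R L (u : R) = 1 := by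
      rw [← map_mul, Units.inv_mul, map_one]
    rw [hr] at h1
    exact (eq_of_mul_inv_eq_one (by simpa using h1))
  · exfalso
    have hmem : r ∈ IsLocalRing.maximalIdeal R := (IsLocalRing.mem_maximalIdeal r).2 hu
    rw [(IsDiscreteValuationRing.irreducible_iff_uniformizer ϖ).1 S.irr,
      Ideal.mem_span_singleton] at hmem
    obtain ⟨r', rfl⟩ := hmem
    apply S.gauss.inv_not_mem
    have h1 : algebraMap L F c * algebraMap R F (ϖ * r') = 1 := by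
      rw [IsScalarTower.algebraMap_apply R L F, hr, ← map_mul, mul_inv_cancel₀ hc0, map_one]
    have h2 : (algebraMap R F ϖ)⁻¹ = algebraMap L F c * algebraMap R F r' := by
      rw [map_mul] at h1
      apply inv_eq_of_mul_eq_one_right
      rw [← h1]
      ring
    rw [h2]
    exact 𝒪.mul_mem _ _ hc (S.base r')

/-- a constant which is `≡ 1` modulo `ϖ ^ i` is `1 + ϖ ^ i r`. -/
theorem exists_of_congP_one (S : DepSetting ϖ 𝒪 p e1 lam) {i : ℕ} {c : L}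
    (hc : CongP ϖ 𝒪 i (algebraMap L F c) 1) : ∃ r : R, c = 1 + algebraMap R L (ϖ ^ i * r) := by
  have hϖL : algebraMap R L ϖ ≠ 0 := by
    intro h0
    apply S.gauss.ne_zero
    rw [IsScalarTower.algebraMap_apply R L F, h0, map_zero]
  have h1 : algebraMap L F ((c - 1) / algebraMap R L ϖ ^ i) ∈ 𝒪 := by
    rw [map_div₀, map_sub, map_one, map_pow, ← IsScalarTower.algebraMap_apply R L F]
    exact hc
  obtain ⟨r, hr⟩ := exists_of_algebraMap_mem S h1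
  refine ⟨r, ?_⟩
  rw [map_mul, map_pow, hr]
  field_simp
  ring

theorem Basic_exists_pow_mul_unit (S : DepSetting ϖ 𝒪 p e1 lam) {z : F} (hz : z ≠ 0)
    (hzO : z ∈ 𝒪) : ∃ (n : ℕ) (y : F), y ∈ 𝒪 ∧ y⁻¹ ∈ 𝒪 ∧ z = algebraMap R F ϖ ^ n * y := by
  classical
  have hP0 := S.gauss.ne_zero
  have hex := S.sep z hzO hz
  have hfind := Nat.find_spec hex
  have hn0 : Nat.find hex ≠ 0 := by
    intro h0
    rw [h0, pow_zero, div_one] at hfind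
    exact hfind hzO
  obtain ⟨m, hm⟩ : ∃ m, Nat.find hex = m + 1 := ⟨Nat.find hex - 1, by omega⟩
  have hmem : z / algebraMap R F ϖ ^ m ∈ 𝒪 := by
    have := Nat.find_min hex (m := m) (by omega)
    exact not_not.1 this
  rw [hm] at hfind
  refine ⟨m, z / algebraMap R F ϖ ^ m, hmem, ?_, ?_⟩
  · refine (S.gauss.unif _ hmem).resolve_left ?_
    intro h
    apply hfind
    rw [pow_succ, ← div_div]
    exact h
  · field_simp

/-- every nonzero element of `F` is a power of `ϖ` times a unit of `𝒪`. -/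
theorem exists_zpow_mul_unit (S : DepSetting ϖ 𝒪 p e1 lam) {z : F} (hz : z ≠ 0) :
    ∃ (n : ℤ) (y : F), y ∈ 𝒪 ∧ y⁻¹ ∈ 𝒪 ∧ z = algebraMap R F ϖ ^ n * y := by
  rcases 𝒪.mem_or_inv_mem z with h | h
  · obtain ⟨n, y, hy, hy', hzy⟩ := Basic_exists_pow_mul_unit S hz h
    exact ⟨n, y, hy, hy', by rw [zpow_natCast]; exact hzy⟩
  · obtain ⟨n, y, hy, hy', hzy⟩ := Basic_exists_pow_mul_unit S (inv_ne_zero hz) h
    refine ⟨-n, y⁻¹, hy', by rwa [inv_inv], ?_⟩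
    rw [zpow_neg, zpow_natCast, ← mul_inv, ← hzy, inv_inv]

theorem Dep.mono (S : DepSetting ϖ 𝒪 p e1 lam) {i j : ℕ} (hij : j ≤ i) {u : F}
    (h : Dep L ϖ 𝒪 p i u) : Dep L ϖ 𝒪 p j u := by
  obtain ⟨c, z, hc, hz, h⟩ := h
  exact ⟨c, z, hc, hz, h.mono S hij⟩

theorem Dep.mul (S : DepSetting ϖ 𝒪 p e1 lam) {i : ℕ} {u v : F} (hu : Dep L ϖ 𝒪 p i u)
    (hv : Dep L ϖ 𝒪 p i v) : Dep L ϖ 𝒪 p i (u * v) := by
  obtain ⟨c, z, hc, hz, h⟩ := hu
  obtain ⟨c', z', hc', hz', h'⟩ := hv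
  refine ⟨c * c', z * z', mul_ne_zero hc hc', mul_ne_zero hz hz', ?_⟩
  have key := h.mul S h' 𝒪.one_mem 𝒪.one_mem
  rw [mul_one] at key
  have h2 : algebraMap L F (c * c') * (z * z') ^ p * (u * v) =
      algebraMap L F c * z ^ p * u * (algebraMap L F c' * z' ^ p * v) := by
    rw [map_mul]
    ring
  rw [h2]
  exact key

theorem Dep.inv (S : DepSetting ϖ 𝒪 p e1 lam) {i : ℕ} (hi : 0 < i) {u : F}
    (hu : Dep L ϖ 𝒪 p i u) : Dep L ϖ 𝒪 p i u⁻¹ := by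
  obtain ⟨c, z, hc, hz, h⟩ := hu
  refine ⟨c⁻¹, z⁻¹, inv_ne_zero hc, inv_ne_zero hz, ?_⟩
  have key := (h.inv_one S hi).2
  have h2 : algebraMap L F c⁻¹ * z⁻¹ ^ p * u⁻¹ = (algebraMap L F c * z ^ p * u)⁻¹ := by
    rw [map_inv₀, inv_pow, mul_inv, mul_inv]
  rw [h2]
  exact key

theorem Dep.pow (S : DepSetting ϖ 𝒪 p e1 lam) {i : ℕ} {u : F} (hu : Dep L ϖ 𝒪 p i u) (n : ℕ) :
    Dep L ϖ 𝒪 p i (u ^ n) := by
  obtain ⟨c, z, hc, hz, h⟩ := hu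
  refine ⟨c ^ n, z ^ n, pow_ne_zero n hc, pow_ne_zero n hz, ?_⟩
  have key := h.pow S 𝒪.one_mem n
  rw [one_pow] at key
  have h2 : algebraMap L F (c ^ n) * (z ^ n) ^ p * u ^ n = (algebraMap L F c * z ^ p * u) ^ n := by
    rw [map_pow, mul_pow, mul_pow, ← pow_mul, ← pow_mul, mul_comm n p]
  rw [h2]
  exact key

/-- `Dep` only depends on the class modulo constants and `p`-th powers. -/
theorem dep_mul_iff (i : ℕ) {c : L} {z : F} (hc : c ≠ 0) (hz : z ≠ 0) (u : F) :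
    Dep L ϖ 𝒪 p i (algebraMap L F c * z ^ p * u) ↔ Dep L ϖ 𝒪 p i u := by
  have hcF : algebraMap L F c ≠ 0 := by
    rwa [Ne, map_eq_zero]
  constructor
  · rintro ⟨c', z', hc', hz', h⟩
    refine ⟨c' * c, z' * z, mul_ne_zero hc' hc, mul_ne_zero hz' hz, ?_⟩
    have h2 : algebraMap L F (c' * c) * (z' * z) ^ p * u =
        algebraMap L F c' * z' ^ p * (algebraMap L F c * z ^ p * u) := by
      rw [map_mul]
      ring
    rw [h2]
    exact h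
  · rintro ⟨c', z', hc', hz', h⟩
    refine ⟨c' * c⁻¹, z' * z⁻¹, mul_ne_zero hc' (inv_ne_zero hc),
      mul_ne_zero hz' (inv_ne_zero hz), ?_⟩
    have h2 : algebraMap L F (c' * c⁻¹) * (z' * z⁻¹) ^ p * (algebraMap L F c * z ^ p * u) =
        algebraMap L F c' * z' ^ p * u := by
      rw [map_mul, map_inv₀, mul_pow, inv_pow]
      field_simp
    rw [h2]
    exact h

end Fermat.Agent.LP.Dep
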