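import Mathlib

/-!
# LP-DEP: `p ≡ - (ζ - 1) ^ (p - 1)` modulo `(ζ - 1) ^ p`
-/

set_option autoImplicit false

namespace Fermat.Agent.LP.Dep

/-- `(1 + x) ^ p = 1 + x ^ p + p x (1 + x g)`. -/
theorem Lam_add_one_pow {R : Type*} [CommRing R] (p : ℕ) (hp : p.Prime) (x : R) :
    ∃ g : R, (x + 1) ^ p = x ^ p + 1 + (p : R) * x * (1 + x * g) := by
  have h := add_pow_prime_eq hp x 1
  have h1 : 1 ∈ Finset.Ioo 0 p := Finset.mem_Ioo.mpr ⟨Nat.one_pos, hp.one_lt⟩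
  rw [← Finset.add_sum_erase _ _ h1] at h
  have hd : x ∣ ∑ k ∈ (Finset.Ioo 0 p).erase 1,
      x ^ (k - 1) * 1 ^ (p - k - 1) * ((p.choose k / p : ℕ) : R) := by
    apply Finset.dvd_sum
    intro k hk
    obtain ⟨hk1, hk2⟩ := Finset.mem_erase.mp hk
    obtain ⟨hk3, -⟩ := Finset.mem_Ioo.mp hk2
    exact Dvd.dvd.mul_right (Dvd.dvd.mul_right (dvd_pow_self x (by omega)) _) _
  obtain ⟨g, hg⟩ := hd
  refine ⟨g, ?_⟩
  rw [h, hg, Nat.choose_one_right, Nat.div_self hp.pos]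
  simp

/-- `p ≡ - (ζ - 1) ^ (p - 1)` modulo `(ζ - 1) ^ p` in a local domain of residue characteristic
`p`. -/
theorem exists_natCast_eq_lam {R : Type*} [CommRing R] [IsDomain R] [IsLocalRing R] (p : ℕ)
    [Fact p.Prime] (hpR : (p : R) ∈ IsLocalRing.maximalIdeal R) (ζ : R)
    (hζ : IsPrimitiveRoot ζ p) :
    ∃ s : R, (p : R) = - (ζ - 1) ^ (p - 1) + (ζ - 1) ^ p * s := by
  have hp : p.Prime := Fact.out
  have hlam0 : ζ - 1 ≠ 0 := sub_ne_zero.mpr (hζ.ne_one hp.one_lt)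
  obtain ⟨g, hg⟩ := Lam_add_one_pow p hp (ζ - 1)
  rw [sub_add_cancel, hζ.pow_eq_one] at hg
  have hpp : (ζ - 1) ^ p = (ζ - 1) * (ζ - 1) ^ (p - 1) := by
    rw [← pow_succ', Nat.sub_add_cancel hp.pos]
  have h1 : (ζ - 1) ^ (p - 1) + (p : R) * (1 + (ζ - 1) * g) = 0 := by
    apply mul_left_cancel₀ hlam0
    rw [mul_zero]
    linear_combination (-1 : R) * hg - hpp
  have hmem : ζ - 1 ∈ IsLocalRing.maximalIdeal R := by
    have h2 : (ζ - 1) ^ (p - 1) ∈ IsLocalRing.maximalIdeal R := by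
      have e : (ζ - 1) ^ (p - 1) = (p : R) * -(1 + (ζ - 1) * g) := by linear_combination h1
      rw [e]
      exact Ideal.mul_mem_right _ _ hpR
    exact Ideal.IsPrime.mem_of_pow_mem inferInstance _ h2
  have hU : IsUnit (1 + (ζ - 1) * g) := by
    rw [← IsLocalRing.notMem_maximalIdeal]
    intro h
    have h3 : (1 : R) ∈ IsLocalRing.maximalIdeal R := by
      have e : (1 : R) = (1 + (ζ - 1) * g) - (ζ - 1) * g := by ring
      rw [e]
      exact Ideal.sub_mem _ h (Ideal.mul_mem_right _ _ hmem)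
    exact (Ideal.ne_top_iff_one _).mp (IsLocalRing.maximalIdeal.isMaximal R).ne_top h3
  obtain ⟨u, hu⟩ := hU
  have hV : (1 + (ζ - 1) * g) * (↑u⁻¹ : R) = 1 := by
    rw [← hu]
    exact u.mul_inv
  refine ⟨g * (↑u⁻¹ : R), ?_⟩
  rw [hpp]
  linear_combination (↑u⁻¹ : R) * h1 - ((p : R) + (ζ - 1) ^ (p - 1)) * hV

/-- `(ζ ^ c - 1) = (ζ - 1) γ` with `γ ≡ c` modulo `ζ - 1`. -/
theorem exists_pow_sub_one_eq {R : Type*} [CommRing R] (ζ : R) (c : ℕ) :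
    ∃ t : R, ζ ^ c - 1 = (ζ - 1) * ((c : R) + (ζ - 1) * t) := by
  induction c with
  | zero => exact ⟨0, by simp⟩
  | succ c ih =>
    obtain ⟨t, ht⟩ := ih
    refine ⟨(c : R) + ζ * t, ?_⟩
    push_cast
    linear_combination ζ * ht

end Fermat.Agent.LP.Dep
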