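import Fermat.Agent.GR.F.FormalNorm

/-!
# LP-DEP: the formal contraction lemma for `normT p ζ`

`∏_j (b + d g)(ζ^j t) = ∏_j b(ζ^j t) + d^p ∏_j g(ζ^j t) + p d (series in t^p)`.
-/

set_option autoImplicit false

noncomputable section

open ModularCurve

namespace Fermat.Agent.LP.Dep

open Fermat.Agent.GR

section abstract

open Polynomial

variable {A : Type*} [CommRing A] [IsDomain A]

/-- the linear factors -/
private def Trace_f (σ : A →+* A) (b g : A) (j : ℕ) : A[X] := C (σ^[j] g) * X + C (σ^[j] b)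

private theorem Trace_map_f (σ : A →+* A) (b g : A) (j : ℕ) :
    Polynomial.mapRingHom σ (Trace_f σ b g j) = Trace_f σ b g (j + 1) := by
  simp [Trace_f, Function.iterate_succ_apply']

private theorem Trace_iter_f (σ : A →+* A) (b g : A) (i : ℕ) :
    (Polynomial.mapRingHom σ)^[i] (Trace_f σ b g 0) = Trace_f σ b g i := by
  induction i with
  | zero => rfl
  | succ i ih => rw [Function.iterate_succ_apply', ih, Trace_map_f]

private theorem Trace_coeff_iter (σ : A →+* A) (Q : A[X]) (i m : ℕ) :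
    ((Polynomial.mapRingHom σ)^[i] Q).coeff m = σ^[i] (Q.coeff m) := by
  induction i with
  | zero => rfl
  | succ i ih =>
    rw [Function.iterate_succ_apply', Function.iterate_succ_apply', ← ih]
    simp

private theorem Trace_map_prod (σ : A →+* A) (p : ℕ) (hσ : ∀ x, σ^[p] x = x) (b g : A) :
    Polynomial.mapRingHom σ (∏ j ∈ Finset.range p, Trace_f σ b g j)
      = ∏ j ∈ Finset.range p, Trace_f σ b g j := by
  rcases Nat.eq_zero_or_pos p with rfl | hp
  · simp
  obtain ⟨k, rfl⟩ := Nat.exists_eq_succ_of_ne_zero hp.ne'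
  rw [map_prod, Finset.prod_congr rfl (fun j _ => Trace_map_f σ b g j), Finset.prod_range_succ,
    Finset.prod_range_succ' (fun j => Trace_f σ b g j) k]
  congr 1
  simp only [Trace_f, hσ, Function.iterate_zero, id]

/-- the middle coefficients of the norm polynomial are traces -/
theorem Trace_abstract (σ : A →+* A) (p : ℕ) (hσ : ∀ x, σ^[p] x = x) (b g : A)
    (hbg : b ≠ 0 ∨ g ≠ 0) (m : ℕ) :
    ∃ h : A, (∏ j ∈ Finset.range p, (C (σ^[j] g) * X + C (σ^[j] b))).coeff (m + 1) * ((m : A) + 1)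
      = ∑ j ∈ Finset.range p, σ^[j] h := by
  classical
  set P := Polynomial.mapRingHom σ with hP
  set f := Trace_f σ b g with hf
  set F := ∏ j ∈ Finset.range p, f j with hF
  have hF' : (∏ j ∈ Finset.range p, (C (σ^[j] g) * X + C (σ^[j] b))) = F := rfl
  rw [hF']
  have hPF : P F = F := Trace_map_prod σ p hσ b g
  have hf0 : f 0 ≠ 0 := by
    intro h
    have h0 := congrArg (fun Q : A[X] => Q.coeff 0) h
    have h1 := congrArg (fun Q : A[X] => Q.coeff 1) h
    simp [hf, Trace_f] at h0 h1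
    rcases hbg with hb | hg
    · exact hb h0
    · exact hg h1
  have hPp : ∀ Q : A[X], P^[p] Q = Q := by
    intro Q
    ext m
    rw [Trace_coeff_iter, hσ]
  have hfi : ∀ i ∈ Finset.range p, f i ≠ 0 := by
    intro i hi h
    apply hf0
    have hi' : i ≤ p := (Finset.mem_range.mp hi).le
    have : P^[p - i] (P^[i] (f 0)) = f 0 := by
      rw [← Function.iterate_add_apply, Nat.sub_add_cancel hi', hPp]
    rw [← this, Trace_iter_f, ← hf, h, iterate_map_zero]
  have hE : ∀ i ∈ Finset.range p, ∏ j ∈ (Finset.range p).erase i, f j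
      = P^[i] (∏ j ∈ (Finset.range p).erase 0, f j) := by
    intro i hi
    have hp : 0 ∈ Finset.range p :=
      Finset.mem_range.mpr (lt_of_le_of_lt (Nat.zero_le _) (Finset.mem_range.mp hi))
    apply mul_left_cancel₀ (hfi i hi)
    rw [Finset.mul_prod_erase _ _ hi]
    have : f i = P^[i] (f 0) := (Trace_iter_f σ b g i).symm
    rw [this, ← iterate_map_mul, Finset.mul_prod_erase _ _ hp, Function.iterate_fixed hPF]
  have hder : derivative F
      = ∑ i ∈ Finset.range p, P^[i] ((∏ j ∈ (Finset.range p).erase 0, f j) * C g) := by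
    rw [hF, derivative_prod_finset]
    refine Finset.sum_congr rfl (fun i hi => ?_)
    rw [hE i hi, iterate_map_mul]
    congr 1
    have : derivative (f i) = C (σ^[i] g) := by
      simp [hf, Trace_f]
    rw [this]
    ext m
    rw [Trace_coeff_iter]
    simp only [coeff_C]
    split_ifs
    · rfl
    · rw [iterate_map_zero]
  refine ⟨((∏ j ∈ (Finset.range p).erase 0, f j) * C g).coeff m, ?_⟩
  rw [← coeff_derivative, hder, finsetSum_coeff]
  exact Finset.sum_congr rfl (fun i _ => Trace_coeff_iter σ _ i m)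

end abstract

variable {Λ : Type*} [CommRing Λ] [IsDomain Λ]

/-- the trace `∑_j f(ζ^j t)` is `p` times the part of `f` with exponents divisible by `p`. -/
theorem sum_scaleHom (p : ℕ) [NeZero p] (ζ : Λˣ) (hζ : IsPrimitiveRoot ζ p)
    (f : LaurentSeries Λ) :
    ∑ j ∈ Finset.range p, scaleHom (ζ ^ j) f
      = HahnSeries.C (p : Λ) * qExpand Λ p (Uop p f) := by
  ext n
  rw [HahnSeries.C_mul_eq_smul, HahnSeries.coeff_smul, HahnSeries.coeff_sum]
  simp only [scaleHom_coeff, smul_eq_mul]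
  have hpow : ∀ j : ℕ, (((ζ ^ j) ^ n : Λˣ) : Λ) = (((ζ ^ n : Λˣ) : Λ)) ^ j := by
    intro j
    rw [← Units.val_pow_eq_pow_val, ← zpow_natCast, ← zpow_natCast, ← zpow_mul, ← zpow_mul,
      mul_comm]
  simp only [hpow]
  rw [← Finset.sum_mul]
  by_cases hn : (p : ℤ) ∣ n
  · obtain ⟨k, rfl⟩ := hn
    have h1 : ζ ^ ((p : ℤ) * k) = 1 := (hζ.zpow_eq_one_iff_dvd _).2 ⟨k, rfl⟩
    rw [qExpand_coeff_mul, Uop_coeff, h1]
    simp
  · rw [qExpand_coeff_of_not_dvd p _ hn, mul_zero]
    have hne : ((ζ ^ n : Λˣ) : Λ) - 1 ≠ 0 := by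
      intro h
      apply hn
      rw [← hζ.zpow_eq_one_iff_dvd]
      apply Units.ext
      rw [Units.val_one]
      exact sub_eq_zero.mp h
    have h2 : (((ζ ^ n : Λˣ) : Λ)) ^ p = 1 := by
      rw [← Units.val_pow_eq_pow_val, ← zpow_natCast, ← zpow_mul, mul_comm, zpow_mul,
        zpow_natCast, hζ.pow_eq_one, one_zpow, Units.val_one]
    have h3 := mul_geom_sum ((ζ ^ n : Λˣ) : Λ) p
    rw [h2, sub_self] at h3
    rw [(mul_eq_zero.mp h3).resolve_left hne, zero_mul]

private theorem Trace_iter_scaleHom (ζ : Λˣ) (j : ℕ) (x : LaurentSeries Λ) :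
    (scaleHom ζ)^[j] x = scaleHom (ζ ^ j) x := by
  induction j with
  | zero => rw [pow_zero, scaleHom_one]; rfl
  | succ j ih => rw [Function.iterate_succ_apply', ih, scaleHom_scaleHom, pow_succ']

/-- the middle coefficients of the norm are traces. -/
theorem exists_prod_scaleHom_add (p : ℕ) [Fact p.Prime] (ζ : Λˣ) (hζ : IsPrimitiveRoot ζ p)
    (hu : ∀ m : ℕ, 0 < m → m < p → IsUnit (m : Λ)) (b g : LaurentSeries Λ) (d : Λ) :
    ∃ s : LaurentSeries Λ,
      ∏ j ∈ Finset.range p, scaleHom (ζ ^ j) (b + HahnSeries.C d * g)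
        = ∏ j ∈ Finset.range p, scaleHom (ζ ^ j) b
          + HahnSeries.C (d ^ p) * ∏ j ∈ Finset.range p, scaleHom (ζ ^ j) g
          + HahnSeries.C ((p : Λ) * d) * qExpand Λ p s := by
  classical
  have hp0 : p ≠ 0 := (Fact.out : p.Prime).ne_zero
  by_cases hbg : b ≠ 0 ∨ g ≠ 0
  swap
  · rw [not_or, not_not, not_not] at hbg
    obtain ⟨rfl, rfl⟩ := hbg
    refine ⟨0, ?_⟩
    simp [hp0]
  set σ := scaleHom ζ with hσdef
  have hσ : ∀ x, σ^[p] x = x := by
    intro x
    rw [Trace_iter_scaleHom, hζ.pow_eq_one, scaleHom_one]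
  set F : Polynomial (LaurentSeries Λ) := ∏ j ∈ Finset.range p,
    (Polynomial.C (σ^[j] g) * Polynomial.X + Polynomial.C (σ^[j] b)) with hF
  set D : LaurentSeries Λ := HahnSeries.C d with hD
  have hdeg1 : ∀ j ∈ Finset.range p,
      (Polynomial.C (σ^[j] g) * Polynomial.X + Polynomial.C (σ^[j] b)).natDegree ≤ 1 :=
    fun j _ => Polynomial.natDegree_linear_le
  have hdeg : F.natDegree < p + 1 := by
    refine Nat.lt_succ_of_le ((Polynomial.natDegree_prod_le _ _).trans ?_)
    calc _ ≤ ∑ j ∈ Finset.range p, 1 := Finset.sum_le_sum hdeg1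
      _ = p := by simp
  have heval : F.eval D = ∏ j ∈ Finset.range p, scaleHom (ζ ^ j) (b + HahnSeries.C d * g) := by
    rw [hF, Polynomial.eval_prod]
    refine Finset.prod_congr rfl (fun j _ => ?_)
    rw [Trace_iter_scaleHom, Trace_iter_scaleHom, map_add, map_mul, scaleHom_C,
      Polynomial.eval_add, Polynomial.eval_mul, Polynomial.eval_C, Polynomial.eval_C,
      Polynomial.eval_X, hD]
    ring
  have hc0 : F.coeff 0 = ∏ j ∈ Finset.range p, scaleHom (ζ ^ j) b := by
    rw [Polynomial.coeff_zero_eq_eval_zero, hF, Polynomial.eval_prod]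
    refine Finset.prod_congr rfl (fun j _ => ?_)
    rw [Trace_iter_scaleHom, Trace_iter_scaleHom]
    simp
  have hcp : F.coeff p = ∏ j ∈ Finset.range p, scaleHom (ζ ^ j) g := by
    have := Polynomial.coeff_prod_of_natDegree_le (Finset.range p)
      (fun j => Polynomial.C (σ^[j] g) * Polynomial.X + Polynomial.C (σ^[j] b)) 1 hdeg1
    rw [Finset.card_range, mul_one] at this
    rw [hF, this]
    refine Finset.prod_congr rfl (fun j _ => ?_)
    rw [Trace_iter_scaleHom]
    simp
  -- the middle coefficients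
  have hmid : ∀ m : ℕ, ∃ h : LaurentSeries Λ, m + 1 < p →
      F.coeff (m + 1) = HahnSeries.C (p : Λ) * qExpand Λ p h := by
    intro m
    obtain ⟨h, hh⟩ := Trace_abstract σ p hσ b g hbg m
    refine ⟨HahnSeries.C (Ring.inverse ((m + 1 : ℕ) : Λ)) * Uop p h, fun hm => ?_⟩
    have h1 : ∑ j ∈ Finset.range p, σ^[j] h = HahnSeries.C (p : Λ) * qExpand Λ p (Uop p h) := by
      rw [← sum_scaleHom p ζ hζ h]
      exact Finset.sum_congr rfl (fun j _ => Trace_iter_scaleHom ζ j h)
    rw [h1] at hh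
    have h2 : Ring.inverse ((m + 1 : ℕ) : Λ) * ((m + 1 : ℕ) : Λ) = 1 :=
      Ring.inverse_mul_cancel _ (hu (m + 1) (Nat.succ_pos m) hm)
    have h3 : HahnSeries.C (Ring.inverse ((m + 1 : ℕ) : Λ)) * ((m : LaurentSeries Λ) + 1) = 1 := by
      have : ((m : LaurentSeries Λ) + 1) = HahnSeries.C (((m + 1 : ℕ) : Λ)) := by
        rw [map_natCast]
        push_cast
        rfl
      rw [this, ← map_mul, h2, map_one]
    rw [map_mul, qExpand_C]
    calc F.coeff (m + 1) = F.coeff (m + 1) * ((m : LaurentSeries Λ) + 1)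
          * HahnSeries.C (Ring.inverse ((m + 1 : ℕ) : Λ)) := by
          rw [mul_assoc, mul_comm ((m : LaurentSeries Λ) + 1), h3, mul_one]
      _ = _ := by rw [hh]; ring
  choose h hh using hmid
  obtain ⟨k, hk⟩ := Nat.exists_eq_succ_of_ne_zero hp0
  refine ⟨∑ m ∈ Finset.range k, HahnSeries.C (d ^ m) * h m, ?_⟩
  rw [← heval, Polynomial.eval_eq_sum_range' hdeg, Finset.sum_range_succ, hcp]
  have hsum : ∑ m ∈ Finset.range p, F.coeff m * D ^ m
      = ∏ j ∈ Finset.range p, scaleHom (ζ ^ j) b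
        + HahnSeries.C ((p : Λ) * d) * qExpand Λ p (∑ m ∈ Finset.range k,
            HahnSeries.C (d ^ m) * h m) := by
    conv_lhs => rw [hk]
    rw [Finset.sum_range_succ', hc0, pow_zero, mul_one, add_comm, map_sum, Finset.mul_sum]
    congr 1
    refine Finset.sum_congr rfl (fun m hm => ?_)
    have hm' : m + 1 < p := by
      rw [hk]; exact Nat.succ_lt_succ (Finset.mem_range.mp hm)
    rw [hh m hm', map_mul (qExpand Λ p), qExpand_C, hD, map_mul, map_pow, pow_succ]
    ring
  rw [hsum, hD, map_pow]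
  ring

/-- **Formal contraction.** -/
theorem exists_normT_add (p : ℕ) [Fact p.Prime] (ζ : Λˣ) (hζ : IsPrimitiveRoot ζ p)
    (hu : ∀ m : ℕ, 0 < m → m < p → IsUnit (m : Λ)) (b g : LaurentSeries Λ) (d : Λ) :
    ∃ s : LaurentSeries Λ,
      normT p ζ (b + HahnSeries.C d * g)
        = normT p ζ b + HahnSeries.C (d ^ p) * normT p ζ g + HahnSeries.C ((p : Λ) * d) * s := by
  obtain ⟨s, hs⟩ := exists_prod_scaleHom_add p ζ hζ hu b g d
  refine ⟨s, ?_⟩
  apply qExpand_injective (R := Λ) p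
  rw [map_add, map_add, map_mul, map_mul, qExpand_C, qExpand_C, qExpand_normT p ζ hζ,
    qExpand_normT p ζ hζ, qExpand_normT p ζ hζ, hs]

end Fermat.Agent.LP.Dep
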