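import Fermat.Agent.LP.Dep.DepthQ
import Fermat.Agent.LP.Dep.Trace
import Fermat.Agent.LP.Dep.Lam
import Fermat.Agent.GR.B.Export
import Fermat.Agent.GR.F.Red
import Fermat.Agent.GR.F.Frob

/-!
# LP-DEP: contraction at the level of `Q̄` (`LP.DepthAt`, `LP.DeepAt`, `GS.TrivAt`)
-/

set_option autoImplicit false

noncomputable section

open ModularCurve

namespace Fermat.Agent.LP.Dep

open Fermat.Agent.GR Fermat.Agent.LP

section aux

variable {K : Type*} [Field K]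

theorem ContractQ_normT_zero (ℓ : ℕ) [NeZero ℓ] (ζ : Kˣ) :
    normT ℓ ζ (0 : LaurentSeries K) = 0 := by
  have h := normT_C ℓ ζ (0 : K)
  rw [map_zero, zero_pow (NeZero.ne ℓ), map_zero] at h
  exact h

theorem ContractQ_normT_one (ℓ : ℕ) [NeZero ℓ] (ζ : Kˣ) :
    normT ℓ ζ (1 : LaurentSeries K) = 1 := by
  have h := normT_C ℓ ζ (1 : K)
  rw [map_one, one_pow, map_one] at h
  exact h

theorem ContractQ_normT_ne_zero (ℓ : ℕ) [NeZero ℓ] (ζ : Kˣ) (hζ : IsPrimitiveRoot ζ ℓ)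
    {u : LaurentSeries K} (hu : u ≠ 0) : normT ℓ ζ u ≠ 0 := by
  intro h
  have h1 := normT_mul ℓ ζ hζ u u⁻¹
  rw [mul_inv_cancel₀ hu, ContractQ_normT_one, h, zero_mul] at h1
  exact one_ne_zero h1

theorem ContractQ_normT_div (ℓ : ℕ) [NeZero ℓ] (ζ : Kˣ) (hζ : IsPrimitiveRoot ζ ℓ)
    (u v : LaurentSeries K) : normT ℓ ζ (u / v) = normT ℓ ζ u / normT ℓ ζ v := by
  by_cases hv : v = 0
  · subst hv
    rw [div_zero, ContractQ_normT_zero, div_zero]
  · rw [eq_div_iff (ContractQ_normT_ne_zero ℓ ζ hζ hv), ← normT_mul ℓ ζ hζ, div_mul_cancel₀ _ hv]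

theorem ContractQ_normT_pow (ℓ : ℕ) [NeZero ℓ] (ζ : Kˣ) (hζ : IsPrimitiveRoot ζ ℓ)
    (u : LaurentSeries K) (n : ℕ) : normT ℓ ζ (u ^ n) = normT ℓ ζ u ^ n := by
  induction n with
  | zero => rw [pow_zero, pow_zero, ContractQ_normT_one]
  | succ n ih => rw [pow_succ, pow_succ, normT_mul ℓ ζ hζ, ih]

end aux

variable {N : ℕ} [NeZero N] {p : ℕ} [Fact p.Prime] {A : ValuationSubring Qbar}

theorem ContractQ_isUnit_natCast (hA : A.LiesOverPrime p) (m : ℕ) (h0 : 0 < m) (hm : m < p) :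
    IsUnit (m : A) := by
  have := charP_residueField A hA
  by_contra hu
  have h1 : (m : A) ∈ IsLocalRing.maximalIdeal A := (IsLocalRing.mem_maximalIdeal _).mpr hu
  rw [← IsLocalRing.residue_eq_zero_iff, map_natCast,
    CharP.cast_eq_zero_iff (IsLocalRing.ResidueField A) p] at h1
  exact absurd (Nat.le_of_dvd h0 h1) (not_le.mpr hm)

/-- decomposition `a = b + d g` over `A`. -/
theorem ContractQ_exists_decomp {d : Qbar} (hd : d ∈ A) (a b : LaurentSeries A)
    (h : ∀ m : ℤ, ∃ r ∈ A, (incl A a).coeff m - (incl A b).coeff m = d * r) :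
    ∃ g : LaurentSeries A, a = b + HahnSeries.C (⟨d, hd⟩ : A) * g := by
  by_cases hd0 : d = 0
  · refine ⟨0, ?_⟩
    rw [mul_zero, add_zero]
    apply incl_injective A
    ext m
    obtain ⟨r, -, hr⟩ := h m
    rw [hd0, zero_mul] at hr
    exact sub_eq_zero.mp hr
  · choose r hrA hr using h
    have hsupp : (Function.support fun m : ℤ => (⟨r m, hrA m⟩ : A)) ⊆ (a - b).support := by
      intro m hm h0
      apply hm
      apply Subtype.ext
      have h1 : (incl A a).coeff m - (incl A b).coeff m = 0 := by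
        have h2 : ((a - b).coeff m : Qbar) = 0 := by
          have : (a - b).coeff m = 0 := by simpa using h0
          rw [this]; rfl
        rw [HahnSeries.coeff_sub] at h2
        exact h2
      rw [hr m] at h1
      exact (mul_eq_zero.mp h1).resolve_left hd0
    refine ⟨{ coeff := fun m => ⟨r m, hrA m⟩
              isPWO_support' := (a - b).isPWO_support.mono hsupp }, ?_⟩
    ext m
    rw [HahnSeries.coeff_add, HahnSeries.C_apply, HahnSeries.coeff_single_zero_mul]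
    have h1 := hr m
    change (a.coeff m : Qbar) - (b.coeff m : Qbar) = d * r m at h1
    change (a.coeff m : Qbar) = (b.coeff m : Qbar) + d * r m
    rw [← h1]
    ring

/-- **Contraction** at the level of `Q̄`. -/
theorem depthAt_normT (hpN : p ∣ N) (hA : A.LiesOverPrime p) (ζ : Qbarˣ)
    (hζ : IsPrimitiveRoot ζ p) {d d' : Qbar} (hd : d ∈ A) (h1 : ∃ r ∈ A, d ^ p = d' * r)
    (h2 : ∃ r ∈ A, (p : Qbar) * d = d' * r) {y : LaurentSeries Qbar}
    (hy : DepthAt N p A d y) : DepthAt N p A d' (normT p ζ y) := by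
  obtain ⟨a, b, haF, hbF, haP, hbI, hab, z, hzF, hz0, hyz⟩ := hy
  obtain ⟨a', rfl⟩ := (isInt_iff A).mp haP.1
  obtain ⟨b', rfl⟩ := (isInt_iff A).mp hbI
  have := charP_residueField A hA
  obtain ⟨ξ, hξ, hξ1⟩ := exists_unit_of_pow_eq_one A hA ζ hζ.pow_eq_one
  have hξp : IsPrimitiveRoot ξ p := by
    apply (IsPrimitiveRoot.map_iff_of_injective (f := Units.map (A.subtype : ↥A →* Qbar))
      (Units.map_injective A.subtype_injective)).mp
    rw [hξ]
    exact hζ
  have hi : ∀ x : LaurentSeries A, incl A (normT p ξ x) = normT p ζ (incl A x) := by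
    intro x
    rw [incl, coeffMap_normT, hξ]
  have hr : ∀ x : LaurentSeries A, red A (normT p ξ x) =
      coeffMap (frobenius (IsLocalRing.ResidueField A) p) (red A x) := by
    intro x
    rw [red, coeffMap_normT, hξ1, normT_one_char]
  have hfrobinj : Function.Injective
      (coeffMap (frobenius (IsLocalRing.ResidueField A) p)) := by
    intro x y hxy
    ext k
    have := congrArg (fun s => s.coeff k) hxy
    exact (frobenius (IsLocalRing.ResidueField A) p).injective this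
  obtain ⟨g, hg⟩ := ContractQ_exists_decomp hd a' b' hab
  obtain ⟨s, hs⟩ := exists_normT_add p ξ hξp (ContractQ_isUnit_natCast hA) b' g ⟨d, hd⟩
  rw [← hg] at hs
  obtain ⟨r1, hr1A, hr1⟩ := h1
  obtain ⟨r2, hr2A, hr2⟩ := h2
  refine ⟨normT p ζ (incl A a'), normT p ζ (incl A b'), B.normT_mem_FF_Qbar p hpN ζ hζ haF,
    B.normT_mem_FF_Qbar p hpN ζ hζ hbF, ?_, ?_, ?_, normT p ζ z,
    B.normT_mem_FF_Qbar p hpN ζ hζ hzF, ContractQ_normT_ne_zero p ζ hζ hz0, ?_⟩
  · rw [← hi, isPrim_incl_iff, hr]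
    intro h0
    exact (isPrim_incl_iff A a').mp haP (hfrobinj (by rw [h0, map_zero]))
  · rw [← hi]
    exact (isInt_iff A).mpr ⟨_, rfl⟩
  · intro m
    rw [← hi, ← hi, hs]
    refine ⟨r1 * ((normT p ξ g).coeff m : Qbar) + r2 * (s.coeff m : Qbar),
      A.add_mem _ _ (A.mul_mem _ _ hr1A ((normT p ξ g).coeff m).2)
        (A.mul_mem _ _ hr2A (s.coeff m).2), ?_⟩
    have e1 : (incl A (normT p ξ b' + HahnSeries.C ((⟨d, hd⟩ : A) ^ p) * normT p ξ g
        + HahnSeries.C ((p : A) * (⟨d, hd⟩ : A)) * s)).coeff m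
        = (incl A (normT p ξ b')).coeff m + d ^ p * ((normT p ξ g).coeff m : Qbar)
          + (p : Qbar) * d * (s.coeff m : Qbar) := by
      change (((normT p ξ b' + HahnSeries.C ((⟨d, hd⟩ : A) ^ p) * normT p ξ g
        + HahnSeries.C ((p : A) * (⟨d, hd⟩ : A)) * s).coeff m : A) : Qbar) = _
      rw [HahnSeries.coeff_add, HahnSeries.coeff_add, HahnSeries.C_apply, HahnSeries.C_apply,
        HahnSeries.coeff_single_zero_mul, HahnSeries.coeff_single_zero_mul]
      push_cast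
      rfl
    rw [e1, hr1, hr2]
    ring
  · rw [← ContractQ_normT_div p ζ hζ, hyz, normT_mul p ζ hζ, ContractQ_normT_pow p ζ hζ]

/-- after finitely many applications of `U_p` a class of positive depth is deep. -/
theorem exists_deepAt_iterate (hpN : p ∣ N) (hA : A.LiesOverPrime p) (ζ : Qbarˣ)
    (hζ : IsPrimitiveRoot ζ p) {y : LaurentSeries Qbar} (hy : GS.TrivAt N p A y) :
    ∃ r₀ : ℕ, ∀ r : ℕ, r₀ ≤ r → DeepAt N p A ((normT p ζ)^[r] y) := by
  have hp : p.Prime := Fact.out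
  have hp0 : (p : Qbar) ≠ 0 := by exact_mod_cast hp.ne_zero
  obtain ⟨d, hdm, hdy⟩ := (trivAt_iff_exists_depthAt y).mp hy
  -- the constant `d₀`
  obtain ⟨d₀, hd₀m, ⟨r₀, hr₀A, hr₀⟩, hdd₀⟩ : ∃ d₀ ∈ A.nonunits,
      (∃ r ∈ A, (p : Qbar) = d₀ * r) ∧ ∃ r ∈ A, d = d₀ * r := by
    by_cases hd0 : d = 0
    · exact ⟨p, hA, ⟨1, A.one_mem, (mul_one _).symm⟩, 0, A.zero_mem, by rw [hd0, mul_zero]⟩
    · rcases A.mem_or_inv_mem ((p : Qbar) / d) with h | h
      · exact ⟨d, hdm, ⟨_, h, by field_simp⟩, 1, A.one_mem, (mul_one _).symm⟩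
      · exact ⟨p, hA, ⟨1, A.one_mem, (mul_one _).symm⟩, _, h, by field_simp⟩
  have hd₀A : d₀ ∈ A := A.nonunits_subset hd₀m
  have hdy₀ : DepthAt N p A d₀ y := DepthAt.mono hdd₀ hdy
  have hind : ∀ r : ℕ, DepthAt N p A (d₀ ^ (r + 1)) ((normT p ζ)^[r] y) := by
    intro r
    induction r with
    | zero => simpa using hdy₀
    | succ r ih =>
      rw [Function.iterate_succ_apply']
      refine depthAt_normT hpN hA ζ hζ (pow_mem hd₀A _) ?_ ?_ ih
      · refine ⟨d₀ ^ ((r + 1) * p - (r + 1 + 1)), pow_mem hd₀A _, ?_⟩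
        rw [← pow_mul, ← pow_add]
        congr 1
        have h2 : 2 ≤ p := hp.two_le
        have : r + 1 + 1 ≤ (r + 1) * p := by nlinarith
        omega
      · refine ⟨r₀, hr₀A, ?_⟩
        rw [hr₀]
        ring
  obtain ⟨s, -, x, hxA, hx⟩ := exists_pow_div_mem hA hd₀m
  -- `p ^ 2 ∈ (ζ - 1) ^ p A`
  obtain ⟨ξ, hξ, -⟩ := exists_unit_of_pow_eq_one A hA ζ hζ.pow_eq_one
  have hξp : IsPrimitiveRoot (ξ : A) p := by
    apply (IsPrimitiveRoot.map_iff_of_injective (f := A.subtype) A.subtype_injective).mp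
    have h1 : A.subtype (ξ : A) = (ζ : Qbar) := congrArg Units.val hξ
    rw [h1]
    exact hζ.map_of_injective (f := Units.coeHom Qbar) Units.val_injective
  have hpm : (p : A) ∈ IsLocalRing.maximalIdeal A := by
    rw [← ValuationSubring.coe_mem_nonunits_iff]
    have : ((p : A) : Qbar) = (p : Qbar) := by simp
    rw [this]
    exact hA
  obtain ⟨t, ht⟩ := exists_natCast_eq_lam p hpm (ξ : A) hξp
  have hξζ : ((ξ : A) : Qbar) = (ζ : Qbar) := congrArg Units.val hξ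
  have ht' : (p : Qbar) = - ((ζ : Qbar) - 1) ^ (p - 1) + ((ζ : Qbar) - 1) ^ p * (t : Qbar) := by
    have := congrArg (fun a : A => (a : Qbar)) ht
    simpa [hξζ] using this
  have hζA : (ζ : Qbar) ∈ A := hξζ ▸ (ξ : A).2
  obtain ⟨w, hwA, hw⟩ : ∃ w ∈ A, (p : Qbar) ^ 2 = ((ζ : Qbar) - 1) ^ p * w := by
    set lam := (ζ : Qbar) - 1 with hlam
    have hlamA : lam ∈ A := A.sub_mem hζA A.one_mem
    refine ⟨lam ^ (p - 2) * (-1 + lam * (t : Qbar)) ^ 2, A.mul_mem _ _ (pow_mem hlamA _)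
      (pow_mem (A.add_mem _ _ (A.neg_mem _ A.one_mem) (A.mul_mem _ _ hlamA t.2)) _), ?_⟩
    obtain ⟨k, hk⟩ : ∃ k, p = k + 2 := ⟨p - 2, by have := hp.two_le; omega⟩
    rw [ht']
    have e1 : p - 1 = k + 1 := by omega
    have e2 : p - 2 = k := by omega
    rw [e1, e2, hk]
    ring
  refine ⟨2 * s, fun r hr => ⟨(ζ : Qbar), d₀,
    hζ.map_of_injective (f := Units.coeHom Qbar) Units.val_injective, hd₀m, DepthAt.mono ?_ (hind r)⟩⟩
  refine ⟨w * x ^ 2 * d₀ ^ (r - 2 * s), A.mul_mem _ _ (A.mul_mem _ _ hwA (pow_mem hxA _))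
    (pow_mem hd₀A _), ?_⟩
  have e : r + 1 = s + s + 1 + (r - 2 * s) := by omega
  calc d₀ ^ (r + 1) = d₀ ^ s * d₀ ^ s * d₀ * d₀ ^ (r - 2 * s) := by
        rw [e, pow_add, pow_add, pow_add, pow_one]
    _ = (p : Qbar) ^ 2 * x ^ 2 * d₀ * d₀ ^ (r - 2 * s) := by rw [hx]; ring
    _ = _ := by rw [hw]; ring

end Fermat.Agent.LP.Dep
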