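import Fermat.Agent.LP.Dep.Trace
import Fermat.Agent.GR.D.Vert.Series
import Fermat.Agent.GR.F.Frob

/-!
# LP-DEP: contraction over a DVR (`IsGInt` of `GR/D/Vert/Gauss.lean`)

`u ≡ 1` modulo `ϖ ^ i` at the Gauss valuation implies `normT p ζ u ≡ 1` modulo
`ϖ ^ min (p i, e + i)`.
-/

set_option autoImplicit false

noncomputable section

open ModularCurve

namespace Fermat.Agent.LP.Dep

open Fermat.Agent.GR Fermat.Agent.GR.D.Vert Fermat.Agent.S28

variable {R : Type*} [CommRing R] [IsDomain R] [IsDiscreteValuationRing R]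
variable {L : Type*} [Field L] [Algebra R L] [IsFractionRing R L]

theorem ContractR_charP (p : ℕ) [Fact p.Prime] (hpR : (p : R) ∈ IsLocalRing.maximalIdeal R) :
    CharP (IsLocalRing.ResidueField R) p := by
  rw [CharP.charP_iff_prime_eq_zero Fact.out]
  have := (IsLocalRing.residue_eq_zero_iff (p : R)).2 hpR
  rwa [map_natCast] at this

theorem ContractR_isUnit (p : ℕ) [Fact p.Prime] (hpR : (p : R) ∈ IsLocalRing.maximalIdeal R)
    (m : ℕ) (h0 : 0 < m) (hm : m < p) : IsUnit (m : R) := by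
  have : CharP (IsLocalRing.ResidueField R) p := ContractR_charP p hpR
  rw [← IsLocalRing.residue_ne_zero_iff_isUnit, map_natCast, Ne,
    CharP.cast_eq_zero_iff (IsLocalRing.ResidueField R) p]
  exact Nat.not_dvd_of_pos_of_lt h0 hm

omit [IsDomain R] [IsDiscreteValuationRing R] in
theorem ContractR_isPrimitiveRoot {p : ℕ} {ζ : Rˣ} (hζ : IsPrimitiveRoot ζ p) :
    IsPrimitiveRoot (Units.map (algebraMap R L : R →* L) ζ) p :=
  hζ.map_of_injective (Units.map_injective (IsFractionRing.injective R L))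

/-- `normT` preserves series with nonzero reduction (residue characteristic `p`). -/
theorem redL_normT_ne_zero (p : ℕ) [Fact p.Prime] (hpR : (p : R) ∈ IsLocalRing.maximalIdeal R)
    (ζ : Rˣ) (hζ : ζ ^ p = 1) {s : LaurentSeries R} (hs : redL R s ≠ 0) :
    redL R (normT p ζ s) ≠ 0 := by
  have : CharP (IsLocalRing.ResidueField R) p := ContractR_charP p hpR
  have hζ1 : Units.map (IsLocalRing.residue R : R →* IsLocalRing.ResidueField R) ζ = 1 := by
    apply Units.ext
    apply frobenius_inj (IsLocalRing.ResidueField R) p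
    rw [frobenius_def, frobenius_def, Units.val_one, one_pow, ← Units.val_pow_eq_pow_val,
      ← map_pow, hζ, map_one, Units.val_one]
  rw [coeffMap_normT, hζ1, normT_one_char]
  intro h
  apply hs
  apply coeffMap_injective _ (frobenius_inj (IsLocalRing.ResidueField R) p)
  rw [h, map_zero]

/-- `normT` preserves the Gauss ring. -/
theorem isGInt_normT (p : ℕ) [Fact p.Prime] (hpR : (p : R) ∈ IsLocalRing.maximalIdeal R)
    (ζ : Rˣ) (hζ : IsPrimitiveRoot ζ p) {u : LaurentSeries L} (hu : IsGInt R u) :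
    IsGInt R (normT p (Units.map (algebraMap R L : R →* L) ζ) u) := by
  obtain ⟨s, y, hs, h⟩ := hu
  have hζL := ContractR_isPrimitiveRoot (L := L) hζ
  refine ⟨normT p ζ s, normT p ζ y, redL_normT_ne_zero p hpR ζ hζ.pow_eq_one hs, ?_⟩
  rw [coeffMap_normT, coeffMap_normT, ← normT_mul p _ hζL, h]

/-- **Contraction** over a DVR. -/
theorem isGInt_normT_sub_one (p : ℕ) [Fact p.Prime]
    (hpR : (p : R) ∈ IsLocalRing.maximalIdeal R) (ζ : Rˣ) (hζ : IsPrimitiveRoot ζ p)
    {ϖ : R} (hϖ : Irreducible ϖ) {i i' e : ℕ} (he : ϖ ^ e ∣ (p : R)) (h1 : i' ≤ p * i)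
    (h2 : i' ≤ e + i) {u : LaurentSeries L}
    (hu : IsGInt R ((u - 1) / HahnSeries.C (algebraMap R L ϖ) ^ i)) :
    IsGInt R ((normT p (Units.map (algebraMap R L : R →* L) ζ) u - 1)
      / HahnSeries.C (algebraMap R L ϖ) ^ i') := by
  obtain ⟨s, y, hs, h⟩ := hu
  have hζL := ContractR_isPrimitiveRoot (L := L) hζ
  have hϖL : (HahnSeries.C (algebraMap R L ϖ) : LaurentSeries L) ≠ 0 := by
    rw [Ne, map_eq_zero_iff _ HahnSeries.C_injective,
      map_eq_zero_iff _ (IsFractionRing.injective R L)]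
    exact hϖ.ne_zero
  have hC : ∀ m : ℕ, (HahnSeries.C (algebraMap R L ϖ) : LaurentSeries L) ^ m =
      embL R L (HahnSeries.C (ϖ ^ m)) := by
    intro m
    rw [coeffMap_C, map_pow, map_pow]
  -- `s u = s + ϖ^i y`
  have h1 : embL R L s * u = embL R L (s + HahnSeries.C (ϖ ^ i) * y) := by
    rw [map_add, map_mul, ← hC, ← h]
    field_simp
    ring
  obtain ⟨t, ht⟩ := exists_normT_add p ζ hζ (ContractR_isUnit p hpR) s y (ϖ ^ i)
  obtain ⟨a, ha⟩ : ϖ ^ i' ∣ (ϖ ^ i) ^ p := by
    rw [← pow_mul, mul_comm]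
    exact pow_dvd_pow ϖ ‹i' ≤ p * i›
  obtain ⟨b, hb⟩ : ϖ ^ i' ∣ (p : R) * ϖ ^ i :=
    (pow_dvd_pow ϖ h2).trans (by rw [pow_add]; exact mul_dvd_mul_right he _)
  refine ⟨normT p ζ s, HahnSeries.C a * normT p ζ y + HahnSeries.C b * t,
    redL_normT_ne_zero p hpR ζ hζ.pow_eq_one hs, ?_⟩
  have h3 : embL R L (normT p ζ s) * normT p (Units.map (algebraMap R L : R →* L) ζ) u =
      embL R L (normT p ζ (s + HahnSeries.C (ϖ ^ i) * y)) := by
    rw [coeffMap_normT, coeffMap_normT, ← normT_mul p _ hζL, h1]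
  have h4 : embL R L (normT p ζ s) * (normT p (Units.map (algebraMap R L : R →* L) ζ) u - 1) =
      HahnSeries.C (algebraMap R L ϖ) ^ i' *
        embL R L (HahnSeries.C a * normT p ζ y + HahnSeries.C b * t) := by
    rw [mul_sub, h3, ht, hC, ← map_mul, mul_one, ← map_sub]
    congr 1
    rw [ha, hb, map_mul, map_mul]
    ring
  rw [← mul_div_assoc, h4, mul_div_cancel_left₀ _ (pow_ne_zero _ hϖL)]

end Fermat.Agent.LP.Dep
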