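import Fermat.Agent.GR.E.Defs

/-!
# LP-DEP: depth of a class modulo `p`-th powers and constants (abstract setting)

`R` a DVR with uniformizer `ϖ` and fraction field `L`, `F` a field over `L`, `𝒪` a valuation subring
of `F` with uniformizer `ϖ` (a Gauss valuation).  `lam ∈ R` plays the role of `ζ_p - 1`:
`lam ~ ϖ ^ e1` and `p ≡ - lam ^ (p - 1)` modulo `lam ^ p`.
-/

set_option autoImplicit false

namespace Fermat.Agent.LP.Dep

open Fermat.Agent.GR.E

variable {R : Type*} [CommRing R] {F : Type*} [Field F] [Algebra R F]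

/-- `x ≡ y` modulo `ϖ ^ i 𝒪`. -/
def CongP (ϖ : R) (𝒪 : ValuationSubring F) (i : ℕ) (x y : F) : Prop :=
  (x - y) / algebraMap R F ϖ ^ i ∈ 𝒪

/-- the class of `u` modulo `p`-th powers and constants has depth `≥ i`. -/
def Dep (L : Type*) [Field L] [Algebra L F] (ϖ : R) (𝒪 : ValuationSubring F) (p i : ℕ) (u : F) :
    Prop :=
  ∃ (c : L) (z : F), c ≠ 0 ∧ z ≠ 0 ∧ CongP ϖ 𝒪 i (algebraMap L F c * z ^ p * u) 1

/-- The abstract setting of the depth filtration. -/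
structure DepSetting (ϖ : R) (𝒪 : ValuationSubring F) (p e1 : ℕ) (lam : R) : Prop where
  gauss : GaussRing ϖ 𝒪
  irr : Irreducible ϖ
  base : ∀ r : R, algebraMap R F r ∈ 𝒪
  /-- the valuation is discrete of rank one -/
  sep : ∀ x ∈ 𝒪, x ≠ 0 → ∃ n : ℕ, x / algebraMap R F ϖ ^ n ∉ 𝒪
  prime : p.Prime
  e1_pos : 0 < e1
  lam_eq : Associated lam (ϖ ^ e1)
  p_eq : ∃ s : R, (p : R) = - lam ^ (p - 1) + lam ^ p * s
  /-- the constants are `p`-closed in the residue field -/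
  pc : ∀ x ∈ 𝒪, ∀ r : R, CongP ϖ 𝒪 1 (x ^ p) (algebraMap R F r) →
    ∃ r' : R, CongP ϖ 𝒪 1 x (algebraMap R F r')

end Fermat.Agent.LP.Dep
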