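import Fermat.Agent.LP.Defs

/-!
# LP-DEP: basic API of `LP.DepthAt`, `LP.DeepAt`
-/

set_option autoImplicit false

noncomputable section

open ModularCurve

namespace Fermat.Agent.LP.Dep

open Fermat.Agent.GR Fermat.Agent.LP

variable {N : ℕ} [NeZero N] {p : ℕ} [Fact p.Prime] {A : ValuationSubring Qbar}

theorem DepthAt.mono {n : ℕ} {d d' : Qbar} (h : ∃ r ∈ A, d = d' * r) {y : LaurentSeries Qbar}
    (hy : DepthAt N n A d y) : DepthAt N n A d' y := by
  obtain ⟨r, hr, rfl⟩ := h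
  obtain ⟨a, b, ha, hb, hpa, hib, hc, hk⟩ := hy
  refine ⟨a, b, ha, hb, hpa, hib, fun m => ?_, hk⟩
  obtain ⟨r', hr', h'⟩ := hc m
  exact ⟨r * r', mul_mem hr hr', by rw [h', mul_assoc]⟩

theorem DepthAt.congr {n : ℕ} {d : Qbar} {y y' : LaurentSeries Qbar} (h : KummerEquiv N n y y')
    (hy : DepthAt N n A d y) : DepthAt N n A d y' := by
  obtain ⟨a, b, ha, hb, hpa, hib, hc, hk⟩ := hy
  exact ⟨a, b, ha, hb, hpa, hib, hc, h.symm.trans hk⟩

theorem DepthQ_mul_mem_nonunits {d r : Qbar} (hd : d ∈ A.nonunits) (hr : r ∈ A) :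
    d * r ∈ A.nonunits := by
  rw [ValuationSubring.mem_nonunits_iff] at hd ⊢
  rw [map_mul]
  exact mul_lt_one_of_lt_of_le hd ((A.valuation_le_one_iff r).2 hr)

theorem DepthQ_exists_lift (L : IntermediateField ℚ Qbar) (x : LaurentSeries Qbar)
    (hx : ∀ m, x.coeff m ∈ L) :
    ∃ x' : LaurentSeries L, coeffMap (algebraMap L Qbar) x' = x := by
  refine ⟨⟨fun m => ⟨x.coeff m, hx m⟩, ?_⟩, ?_⟩
  · refine x.isPWO_support.mono ?_
    intro m hm
    simp only [Function.mem_support, ne_eq] at hm ⊢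
    intro h
    exact hm (Subtype.ext h)
  · ext m
    rfl

/-- the coefficients of an element of the function field lie in a number field. -/
theorem DepthQ_exists_field {a : LaurentSeries Qbar} (ha : a ∈ FF Qbar N) :
    ∃ L : IntermediateField ℚ Qbar, FiniteDimensional ℚ L ∧ ∀ m : ℤ, a.coeff m ∈ L := by
  obtain ⟨r, hr, s, hs, rfl⟩ := IntermediateField.mem_adjoin_iff_div.mp ha
  obtain ⟨⟨L₁, hL₁, hr₁⟩, -⟩ := isTame_of_mem_adjoin (⊤ : ValuationSubring Qbar) N hr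
  obtain ⟨⟨L₂, hL₂, hs₂⟩, -⟩ := isTame_of_mem_adjoin (⊤ : ValuationSubring Qbar) N hs
  refine ⟨L₁ ⊔ L₂, IntermediateField.finiteDimensional_sup L₁ L₂, fun m => ?_⟩
  obtain ⟨r', rfl⟩ := DepthQ_exists_lift (L₁ ⊔ L₂) r
    (fun n => (le_sup_left : L₁ ≤ L₁ ⊔ L₂) (hr₁ n))
  obtain ⟨s', rfl⟩ := DepthQ_exists_lift (L₁ ⊔ L₂) s
    (fun n => (le_sup_right : L₂ ≤ L₁ ⊔ L₂) (hs₂ n))
  rw [← map_div₀, coeffMap_coeff]
  exact ((r' / s').coeff m).2

/-- the valuation of `Q̄` has rank one. -/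
theorem exists_pow_div_mem (hA : A.LiesOverPrime p) {d : Qbar} (hd : d ∈ A.nonunits) :
    ∃ r : ℕ, 0 < r ∧ ∃ x ∈ A, d ^ r = (p : Qbar) * x := by
  classical
  let L : IntermediateField ℚ Qbar := IntermediateField.adjoin ℚ {d}
  have : FiniteDimensional ℚ L := normalize_finiteDimensional_adjoin d
  have := isPrincipalIdealRing_comap A L
  let R' := A.comap (algebraMap L Qbar)
  have hnu : ∀ z : R', (((z : L) : Qbar)) ∈ A.nonunits → z ∈ IsLocalRing.maximalIdeal R' := by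
    intro z hz
    rw [IsLocalRing.mem_maximalIdeal, mem_nonunits_iff]
    intro hu
    obtain ⟨u, hu⟩ := hu.exists_right_inv
    have h1 : (((z : L) : Qbar)) * (((u : L) : Qbar)) = 1 := by
      have := congrArg (fun t : R' => (((t : L) : Qbar))) hu
      simpa using this
    have h2 : (((z : L) : Qbar)) * (((u : L) : Qbar)) ∈ A.nonunits :=
      DepthQ_mul_mem_nonunits hz u.2
    rw [h1, ValuationSubring.mem_nonunits_iff, map_one] at h2
    exact lt_irrefl _ h2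
  let d' : R' := ⟨⟨d, IntermediateField.mem_adjoin_simple_self ℚ d⟩, A.nonunits_subset hd⟩
  have hd' : d' ∈ IsLocalRing.maximalIdeal R' := hnu d' hd
  have hpcoe : ((((p : R') : L) : Qbar)) = (p : Qbar) := by simp
  have hp' : (p : R') ∈ IsLocalRing.maximalIdeal R' := hnu _ (by rw [hpcoe]; exact hA)
  have hp0 : (p : R') ≠ 0 := by
    intro h0
    have h1 := hpcoe
    rw [h0] at h1
    have hp : (p : Qbar) ≠ 0 := by exact_mod_cast (Fact.out : p.Prime).ne_zero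
    exact hp (by simpa using h1.symm)
  have : IsDiscreteValuationRing R' :=
    { not_a_field' := by
        intro hbot
        rw [hbot, Ideal.mem_bot] at hp'
        exact hp0 hp' }
  obtain ⟨ϖ, hϖ⟩ := IsDiscreteValuationRing.exists_irreducible R'
  obtain ⟨e, he⟩ := IsDiscreteValuationRing.associated_pow_irreducible hp0 hϖ
  have hdvd : ϖ ∣ d' := by
    rw [hϖ.maximalIdeal_eq, Ideal.mem_span_singleton] at hd'
    exact hd'
  have h1 : (p : R') ∣ d' ^ (e + 1) :=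
    (he.dvd.trans (pow_dvd_pow_of_dvd hdvd e)).trans (pow_dvd_pow d' (Nat.le_succ e))
  obtain ⟨x, hx⟩ := h1
  refine ⟨e + 1, Nat.succ_pos e, (((x : L) : Qbar)), x.2, ?_⟩
  have := congrArg (fun t : R' => (((t : L) : Qbar))) hx
  simpa using this

/-- `TrivAt` is positive depth. -/
theorem trivAt_iff_exists_depthAt {n : ℕ} (y : LaurentSeries Qbar) :
    GS.TrivAt N n A y ↔ ∃ d ∈ A.nonunits, DepthAt N n A d y := by
  constructor
  · rintro ⟨a, b, ha, hb, hpa, hib, hcong, hk⟩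
    by_cases h0 : ∃ m : ℤ, a.coeff m - b.coeff m ≠ 0
    · obtain ⟨L₁, hL₁, ha₁⟩ := DepthQ_exists_field ha
      obtain ⟨L₂, hL₂, hb₂⟩ := DepthQ_exists_field hb
      have : FiniteDimensional ℚ (L₁ ⊔ L₂ : IntermediateField ℚ Qbar) :=
        IntermediateField.finiteDimensional_sup L₁ L₂
      obtain ⟨m₀, hm₀, hall⟩ := exists_dvd_all A (L₁ ⊔ L₂) (fun m : ℤ => a.coeff m - b.coeff m)
        (fun m => sub_mem ((le_sup_left : L₁ ≤ L₁ ⊔ L₂) (ha₁ m))
          ((le_sup_right : L₂ ≤ L₁ ⊔ L₂) (hb₂ m)))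
        (fun m => A.nonunits_subset (hcong m)) h0
      refine ⟨a.coeff m₀ - b.coeff m₀, hcong m₀, a, b, ha, hb, hpa, hib, fun m => ?_, hk⟩
      exact ⟨_, hall m, (mul_div_cancel₀ _ hm₀).symm⟩
    · push Not at h0
      refine ⟨0, ?_, a, b, ha, hb, hpa, hib, fun m => ⟨0, zero_mem A, ?_⟩, hk⟩
      · rw [ValuationSubring.mem_nonunits_iff, map_zero]
        exact zero_lt_one
      · rw [h0 m, zero_mul]
  · rintro ⟨d, hd, a, b, ha, hb, hpa, hib, hc, hk⟩
    refine ⟨a, b, ha, hb, hpa, hib, fun m => ?_, hk⟩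
    obtain ⟨r, hr, h⟩ := hc m
    rw [h]
    exact DepthQ_mul_mem_nonunits hd hr

theorem DeepAt.congr {y y' : LaurentSeries Qbar} (h : KummerEquiv N p y y')
    (hy : DeepAt N p A y) : DeepAt N p A y' := by
  obtain ⟨ζ, d, hζ, hd, hdep⟩ := hy
  exact ⟨ζ, d, hζ, hd, DepthAt.congr h hdep⟩

end Fermat.Agent.LP.Dep
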