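import Fermat.Agent.LP.Dep.Pow

/-!
# LP-DEP: exact depth

If `c z ^ p ≡ 1` modulo `ϖ ^ i` (`c` a constant) then the leading term of `c z ^ p - 1` is
a constant plus a `p`-th power (`i < p e1`; only a constant if `p ∤ i`), resp. a constant plus
`y ^ p - y` (`i = p e1`).
-/

set_option autoImplicit false
set_option linter.unusedVariables false

namespace Fermat.Agent.LP.Dep

open Fermat.Agent.GR.E

variable {R L F : Type*} [CommRing R] [IsDomain R] [IsDiscreteValuationRing R]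
  [Field L] [Algebra R L] [IsFractionRing R L] [Field F] [Algebra R F] [Algebra L F]
  [IsScalarTower R L F]
variable {ϖ : R} {𝒪 : ValuationSubring F} {p e1 : ℕ} {lam : R}

omit [IsDomain R] [IsDiscreteValuationRing R] in
theorem Exact_congP_of_eq (hP : algebraMap R F ϖ ≠ 0) {i : ℕ} {x y t : F} (ht : t ∈ 𝒪)
    (h : x - y = algebraMap R F ϖ ^ i * t) : CongP ϖ 𝒪 i x y := by
  unfold CongP
  rw [h, mul_div_cancel_left₀ _ (pow_ne_zero i hP)]
  exact ht

omit [IsDomain R] [IsDiscreteValuationRing R] in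
theorem Exact_exists_of_congP (hP : algebraMap R F ϖ ≠ 0) {i : ℕ} {x y : F}
    (h : CongP ϖ 𝒪 i x y) : ∃ t ∈ 𝒪, x = y + algebraMap R F ϖ ^ i * t := by
  refine ⟨(x - y) / algebraMap R F ϖ ^ i, h, ?_⟩
  rw [mul_div_cancel₀ _ (pow_ne_zero i hP)]
  ring

/-- the key computation: `c Z ≡ 1` modulo `ϖ ^ m` and `Z ≡ 1 + ϖ ^ m t` modulo `ϖ ^ (m + 1)`. -/
theorem Exact_key (S : DepSetting ϖ 𝒪 p e1 lam) {m : ℕ} (hm : 0 < m) {c : L} {Z t : F}
    (ht : t ∈ 𝒪) (h1 : CongP ϖ 𝒪 m (algebraMap L F c * Z) 1)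
    (h2 : CongP ϖ 𝒪 (m + 1) Z (1 + algebraMap R F ϖ ^ m * t)) :
    ∃ r : R, CongP ϖ 𝒪 (m + 1) (algebraMap L F c * Z)
      (1 + algebraMap R F ϖ ^ m * (algebraMap R F r + t)) := by
  have hP := S.gauss.ne_zero
  have hPm := S.gauss.mem
  have h3 : CongP ϖ 𝒪 m (1 + algebraMap R F ϖ ^ m * t) 1 := Exact_congP_of_eq hP ht (by ring)
  have h4 : CongP ϖ 𝒪 m Z 1 := (h2.mono S (Nat.le_succ m)).trans h3
  have h5 : CongP ϖ 𝒪 1 Z 1 := h4.mono S hm
  have hZ0 : Z ≠ 0 := (h5.inv_one S one_pos).1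
  have h6 : CongP ϖ 𝒪 m (algebraMap L F c * Z / Z) 1 := (h1.trans h4.symm).div_one S h5
  rw [mul_div_cancel_right₀ _ hZ0] at h6
  obtain ⟨r, hr⟩ := exists_of_congP_one S h6
  have hcF : algebraMap L F c = 1 + algebraMap R F ϖ ^ m * algebraMap R F r := by
    rw [hr, map_add, map_one, ← IsScalarTower.algebraMap_apply, map_mul, map_pow]
  refine ⟨r, ?_⟩
  have hcO : algebraMap L F c ∈ 𝒪 := by
    rw [hcF]
    exact 𝒪.add_mem _ _ 𝒪.one_mem (𝒪.mul_mem _ _ (𝒪.pow_mem hPm m) (S.base r))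
  have htO : 1 + algebraMap R F ϖ ^ m * t ∈ 𝒪 :=
    𝒪.add_mem _ _ 𝒪.one_mem (𝒪.mul_mem _ _ (𝒪.pow_mem hPm m) ht)
  have h7 : CongP ϖ 𝒪 (m + 1) (algebraMap L F c * Z)
      (algebraMap L F c * (1 + algebraMap R F ϖ ^ m * t)) :=
    (CongP.refl (m + 1) _).mul S h2 hcO htO
  obtain ⟨k, rfl⟩ : ∃ k, m = k + 1 := ⟨m - 1, by omega⟩
  refine h7.trans (Exact_congP_of_eq hP (t := algebraMap R F ϖ ^ k * algebraMap R F r * t)
    (𝒪.mul_mem _ _ (𝒪.mul_mem _ _ (𝒪.pow_mem hPm k) (S.base r)) ht) ?_)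
  rw [hcF]
  ring

/-- the normal form at depth `1`. -/
theorem Exact_normal_form_one (S : DepSetting ϖ 𝒪 p e1 lam) {i : ℕ} (hi0 : 0 < i)
    {c : L} {z : F} (hz : z ≠ 0) (h : CongP ϖ 𝒪 i (algebraMap L F c * z ^ p) 1) :
    ∃ b : L, b ≠ 0 ∧ CongP ϖ 𝒪 1 (z / algebraMap L F b) 1 := by
  have hP := S.gauss.ne_zero
  obtain ⟨n, y, hy, hyi, hzy⟩ := exists_zpow_mul_unit S hz
  have hy0 : y ≠ 0 := by
    rintro rfl
    rw [mul_zero] at hzy
    exact hz hzy
  have hϖL : algebraMap R L ϖ ≠ 0 := by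
    intro h0
    apply hP
    rw [IsScalarTower.algebraMap_apply R L F, h0, map_zero]
  set c0 : L := c * (algebraMap R L ϖ ^ n) ^ p with hc0
  have hc0F : algebraMap L F c0 * y ^ p = algebraMap L F c * z ^ p := by
    rw [hc0, map_mul, map_pow, map_zpow₀, ← IsScalarTower.algebraMap_apply, hzy, mul_pow]
    ring
  have h1 : CongP ϖ 𝒪 1 (algebraMap L F c0 * y ^ p) 1 := by
    rw [hc0F]
    exact h.mono S hi0
  obtain ⟨h1ne, h1i⟩ := h1.inv_one S one_pos
  have h1im : (algebraMap L F c0 * y ^ p)⁻¹ ∈ 𝒪 := h1i.mem S 𝒪.one_mem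
  have hc0ne : algebraMap L F c0 ≠ 0 := left_ne_zero_of_mul h1ne
  have hc0i : algebraMap L F c0⁻¹ ∈ 𝒪 := by
    have e : algebraMap L F c0⁻¹ = (algebraMap L F c0 * y ^ p)⁻¹ * y ^ p := by
      rw [map_inv₀, mul_inv, mul_assoc, inv_mul_cancel₀ (pow_ne_zero p hy0), mul_one]
    rw [e]
    exact 𝒪.mul_mem _ _ h1im (𝒪.pow_mem hy p)
  obtain ⟨r1, hr1⟩ := exists_of_algebraMap_mem S hc0i
  have h2 : CongP ϖ 𝒪 1 (y ^ p) (algebraMap R F r1) := by
    have e : algebraMap R F r1 = algebraMap L F c0⁻¹ := by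
      rw [IsScalarTower.algebraMap_apply R L F, hr1]
    obtain ⟨t, ht, hte⟩ := Exact_exists_of_congP hP h1
    refine Exact_congP_of_eq hP (t := algebraMap L F c0⁻¹ * t) (𝒪.mul_mem _ _ hc0i ht) ?_
    rw [e, map_inv₀]
    field_simp
    linear_combination hte
  obtain ⟨r', hr'⟩ := S.pc y hy r1 h2
  obtain ⟨t, ht, hte⟩ := Exact_exists_of_congP hP hr'
  have h3 : CongP ϖ 𝒪 1 (algebraMap R F r' / y) 1 := by
    refine Exact_congP_of_eq hP (t := -(t * y⁻¹)) (𝒪.neg_mem _ (𝒪.mul_mem _ _ ht hyi)) ?_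
    field_simp
    linear_combination -hte
  obtain ⟨h3ne, h3i⟩ := h3.inv_one S one_pos
  have hr'0 : algebraMap R F r' ≠ 0 := fun h0 => h3ne (by rw [h0, zero_div])
  refine ⟨algebraMap R L ϖ ^ n * algebraMap R L r', mul_ne_zero (zpow_ne_zero _ hϖL) ?_, ?_⟩
  · intro h0
    apply hr'0
    rw [IsScalarTower.algebraMap_apply R L F, h0, map_zero]
  · have e : z / algebraMap L F (algebraMap R L ϖ ^ n * algebraMap R L r') =
        (algebraMap R F r' / y)⁻¹ := by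
      rw [map_mul, map_zpow₀, ← IsScalarTower.algebraMap_apply, ← IsScalarTower.algebraMap_apply,
        hzy, inv_div, mul_div_mul_left _ _ (zpow_ne_zero _ hP)]
    rw [e]
    exact h3i

/-- the inductive step of the normal form. -/
theorem Exact_normal_form_step (S : DepSetting ϖ 𝒪 p e1 lam) {i : ℕ} (hi : i ≤ p * e1)
    {c : L} {z : F} (h : CongP ϖ 𝒪 i (algebraMap L F c * z ^ p) 1) {a : ℕ} (ha1 : 0 < a)
    (ha : p * a < i) {b : L} (hb : b ≠ 0) (hzb : CongP ϖ 𝒪 a (z / algebraMap L F b) 1) :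
    ∃ b' : L, b' ≠ 0 ∧ CongP ϖ 𝒪 (a + 1) (z / algebraMap L F b') 1 := by
  have hP := S.gauss.ne_zero
  have hPm := S.gauss.mem
  have hp := S.prime
  have hae : a < e1 := by
    by_contra hcon
    have : p * e1 ≤ p * a := Nat.mul_le_mul_left p (not_lt.1 hcon)
    omega
  have hbF : algebraMap L F b ≠ 0 := by simpa using hb
  obtain ⟨y, hy, hzy⟩ := Exact_exists_of_congP hP hzb
  have hpow := one_add_pow_congP S hae hy
  have hcz : algebraMap L F (c * b ^ p) * (1 + algebraMap R F ϖ ^ a * y) ^ p =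
      algebraMap L F c * z ^ p := by
    rw [← hzy, map_mul, map_pow, div_pow, mul_assoc, mul_div_cancel₀ _ (pow_ne_zero p hbF)]
  have hm : 0 < p * a := Nat.mul_pos hp.pos ha1
  obtain ⟨r, hr⟩ := Exact_key S hm (𝒪.pow_mem hy p) (by rw [hcz]; exact h.mono S ha.le) hpow
  rw [hcz] at hr
  have h1 : CongP ϖ 𝒪 (p * a + 1)
      (1 + algebraMap R F ϖ ^ (p * a) * (algebraMap R F r + y ^ p)) 1 :=
    hr.symm.trans (h.mono S ha)
  have h2 : CongP ϖ 𝒪 1 (y ^ p) (algebraMap R F (-r)) := by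
    unfold CongP at h1 ⊢
    have e : (y ^ p - algebraMap R F (-r)) / algebraMap R F ϖ ^ 1 =
        (1 + algebraMap R F ϖ ^ (p * a) * (algebraMap R F r + y ^ p) - 1) /
          algebraMap R F ϖ ^ (p * a + 1) := by
      rw [map_neg, pow_succ (algebraMap R F ϖ) (p * a), add_sub_cancel_left,
        mul_div_mul_left _ _ (pow_ne_zero _ hP), pow_one]
      ring
    rw [e]
    exact h1
  obtain ⟨r', hr'⟩ := S.pc y hy (-r) h2
  obtain ⟨t, ht, hte⟩ := Exact_exists_of_congP hP hr'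
  obtain ⟨k, rfl⟩ : ∃ k, a = k + 1 := ⟨a - 1, by omega⟩
  have hd1 : CongP ϖ 𝒪 1 (1 + algebraMap R F ϖ ^ (k + 1) * algebraMap R F r') 1 :=
    Exact_congP_of_eq hP (t := algebraMap R F ϖ ^ k * algebraMap R F r')
      (𝒪.mul_mem _ _ (𝒪.pow_mem hPm k) (S.base r')) (by ring)
  have hd0 := (hd1.inv_one S one_pos).1
  have h3 : CongP ϖ 𝒪 (k + 1 + 1) (z / algebraMap L F b)
      (1 + algebraMap R F ϖ ^ (k + 1) * algebraMap R F r') :=
    Exact_congP_of_eq hP ht (by rw [hzy, hte]; ring)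
  have h4 := h3.div_one S hd1
  have e : algebraMap L F (1 + algebraMap R L ϖ ^ (k + 1) * algebraMap R L r') =
      1 + algebraMap R F ϖ ^ (k + 1) * algebraMap R F r' := by
    rw [map_add, map_one, map_mul, map_pow, ← IsScalarTower.algebraMap_apply,
      ← IsScalarTower.algebraMap_apply]
  refine ⟨b * (1 + algebraMap R L ϖ ^ (k + 1) * algebraMap R L r'), mul_ne_zero hb ?_, ?_⟩
  · intro h0
    apply hd0
    rw [← e, h0, map_zero]
  · rw [map_mul, e, ← div_div]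
    exact h4

/-- **Normal form.**  If `c z ^ p ≡ 1` modulo `ϖ ^ i`, `1 ≤ i ≤ p e1`, then up to a constant
`z ≡ 1` modulo `ϖ ^ a` for every `a` with `p (a - 1) < i`. -/
theorem exists_normal_form (S : DepSetting ϖ 𝒪 p e1 lam) {i : ℕ} (hi0 : 0 < i) (hi : i ≤ p * e1)
    {c : L} {z : F} (hc : c ≠ 0) (hz : z ≠ 0)
    (h : CongP ϖ 𝒪 i (algebraMap L F c * z ^ p) 1) (a : ℕ) (ha : p * a < i + p) :
    ∃ b : L, b ≠ 0 ∧ CongP ϖ 𝒪 a (z / algebraMap L F b) 1 := by
  induction a with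
  | zero =>
    obtain ⟨b, hb, hb1⟩ := Exact_normal_form_one S hi0 hz h
    exact ⟨b, hb, hb1.mono S (Nat.zero_le 1)⟩
  | succ a ih =>
    have e : p * (a + 1) = p * a + p := by ring
    rcases Nat.eq_zero_or_pos a with rfl | ha1
    · exact Exact_normal_form_one S hi0 hz h
    · obtain ⟨b, hb, hb1⟩ := ih (by omega)
      exact Exact_normal_form_step S hi h ha1 (by omega) hb hb1

/-- **Exact depth** below the top. -/
theorem exact_depth (S : DepSetting ϖ 𝒪 p e1 lam) {i : ℕ} (hi0 : 0 < i) (hi : i < p * e1)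
    {c : L} {z : F} (hc : c ≠ 0) (hz : z ≠ 0)
    (h : CongP ϖ 𝒪 i (algebraMap L F c * z ^ p) 1) :
    ∃ (r : R) (y : F), y ∈ 𝒪 ∧ (¬ p ∣ i → y = 0) ∧
      CongP ϖ 𝒪 (i + 1) (algebraMap L F c * z ^ p)
        (1 + algebraMap R F ϖ ^ i * (algebraMap R F r + y ^ p)) := by
  have hP := S.gauss.ne_zero
  have hp := S.prime
  obtain ⟨a, ha1, ha2⟩ : ∃ a, i ≤ p * a ∧ p * a < i + p := by
    refine ⟨(i + p - 1) / p, ?_, ?_⟩
    · have h1 := Nat.div_add_mod (i + p - 1) p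
      have h2 := Nat.mod_lt (i + p - 1) hp.pos
      omega
    · have h1 := Nat.div_add_mod (i + p - 1) p
      have h3 := hp.pos
      omega
  obtain ⟨b, hb, hzb⟩ := exists_normal_form S hi0 hi.le hc hz h a ha2
  have hbF : algebraMap L F b ≠ 0 := by simpa using hb
  obtain ⟨y, hy, hzy⟩ := Exact_exists_of_congP hP hzb
  have hcz : algebraMap L F (c * b ^ p) * (1 + algebraMap R F ϖ ^ a * y) ^ p =
      algebraMap L F c * z ^ p := by
    rw [← hzy, map_mul, map_pow, div_pow, mul_assoc, mul_div_cancel₀ _ (pow_ne_zero p hbF)]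
  by_cases hdvd : p ∣ i
  · have hpa : p * a = i := by
      obtain ⟨k, rfl⟩ := hdvd
      have h1 : k ≤ a := Nat.le_of_mul_le_mul_left ha1 hp.pos
      have h2 : a < k + 1 := by
        apply Nat.lt_of_mul_lt_mul_left (a := p)
        rw [mul_add, mul_one]
        exact ha2
      have : a = k := by omega
      rw [this]
    have hae : a < e1 := by
      apply Nat.lt_of_mul_lt_mul_left (a := p)
      rw [hpa]
      exact hi
    have hpow := one_add_pow_congP S hae hy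
    rw [hpa] at hpow
    obtain ⟨r, hr⟩ := Exact_key S hi0 (𝒪.pow_mem hy p) (by rw [hcz]; exact h) hpow
    rw [hcz] at hr
    exact ⟨r, y, hy, fun hn => absurd hdvd hn, hr⟩
  · have hpa : i + 1 ≤ p * a := by
      rcases Nat.lt_or_ge i (p * a) with h1 | h1
      · exact h1
      · exact absurd ⟨a, le_antisymm ha1 h1⟩ hdvd
    have hae : a ≤ e1 := by
      have h1 : a < e1 + 1 := by
        apply Nat.lt_of_mul_lt_mul_left (a := p)
        rw [mul_add, mul_one]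
        omega
      omega
    have h3 : i + 1 ≤ (p - 1) * e1 + a := by
      have h4 : (p - 1) * a ≤ (p - 1) * e1 := Nat.mul_le_mul_left _ hae
      have h5 : (p - 1) * a + a = p * a := by
        obtain ⟨k, hk⟩ : ∃ k, p = k + 1 := ⟨p - 1, by have := hp.pos; omega⟩
        rw [hk, Nat.add_sub_cancel]
        ring
      omega
    have hpow := one_add_pow_congP_one S hpa h3 hy
    obtain ⟨r, hr⟩ := Exact_key S hi0 𝒪.zero_mem (by rw [hcz]; exact h)
      (by rw [mul_zero, add_zero]; exact hpow)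
    rw [hcz] at hr
    refine ⟨r, 0, 𝒪.zero_mem, fun _ => rfl, ?_⟩
    rw [zero_pow hp.ne_zero]
    exact hr

/-- **Exact depth** at the top. -/
theorem exact_depth_top (S : DepSetting ϖ 𝒪 p e1 lam)
    {c : L} {z : F} (hc : c ≠ 0) (hz : z ≠ 0)
    (h : CongP ϖ 𝒪 (p * e1) (algebraMap L F c * z ^ p) 1) :
    ∃ (r : R) (y : F), y ∈ 𝒪 ∧
      CongP ϖ 𝒪 (p * e1 + 1) (algebraMap L F c * z ^ p)
        (1 + algebraMap R F lam ^ p * (algebraMap R F r + (y ^ p - y))) := by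
  have hP := S.gauss.ne_zero
  have hp := S.prime
  have hm : 0 < p * e1 := Nat.mul_pos hp.pos S.e1_pos
  obtain ⟨b, hb, hzb⟩ := exists_normal_form S hm le_rfl hc hz h e1 (by have := hp.pos; omega)
  have hbF : algebraMap L F b ≠ 0 := by simpa using hb
  obtain ⟨y0, hy0, hzy⟩ := Exact_exists_of_congP hP hzb
  obtain ⟨u, hu⟩ := S.lam_eq
  -- `lam * u = ϖ ^ e1`
  have huF : algebraMap R F lam * algebraMap R F (u : R) = algebraMap R F ϖ ^ e1 := by
    rw [← map_mul, hu, map_pow]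
  have hvF : algebraMap R F lam = algebraMap R F ϖ ^ e1 * algebraMap R F ((u⁻¹ : Rˣ) : R) := by
    rw [← huF, mul_assoc, ← map_mul, Units.mul_inv, map_one, mul_one]
  have huv : algebraMap R F ((u⁻¹ : Rˣ) : R) * algebraMap R F (u : R) = 1 := by
    rw [← map_mul, Units.inv_mul, map_one]
  obtain ⟨y, hy⟩ : ∃ y : F, y = algebraMap R F (u : R) * y0 := ⟨_, rfl⟩
  have hyO : y ∈ 𝒪 := by
    rw [hy]
    exact 𝒪.mul_mem _ _ (S.base _) hy0
  have hzy' : z / algebraMap L F b = 1 + algebraMap R F lam * y := by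
    rw [hzy, hy, ← mul_assoc, huF]
  have hcz : algebraMap L F (c * b ^ p) * (1 + algebraMap R F lam * y) ^ p =
      algebraMap L F c * z ^ p := by
    rw [← hzy', map_mul, map_pow, div_pow, mul_assoc, mul_div_cancel₀ _ (pow_ne_zero p hbF)]
  have hpow := one_add_lam_pow_congP S hyO
  have hlamp : algebraMap R F lam ^ p =
      algebraMap R F ϖ ^ (p * e1) * algebraMap R F ((u⁻¹ : Rˣ) : R) ^ p := by
    rw [hvF, mul_pow, ← pow_mul, mul_comm e1 p]
  have htO : algebraMap R F ((u⁻¹ : Rˣ) : R) ^ p * (y ^ p - y) ∈ 𝒪 :=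
    𝒪.mul_mem _ _ (𝒪.pow_mem (S.base _) p) (𝒪.sub_mem (𝒪.pow_mem hyO p) hyO)
  rw [hlamp, mul_assoc] at hpow
  obtain ⟨r0, hr0⟩ := Exact_key S hm htO (by rw [hcz]; exact h) hpow
  rw [hcz] at hr0
  refine ⟨(u : R) ^ p * r0, y, hyO, ?_⟩
  have e : 1 + algebraMap R F lam ^ p * (algebraMap R F ((u : R) ^ p * r0) + (y ^ p - y)) =
      1 + algebraMap R F ϖ ^ (p * e1) *
        (algebraMap R F r0 + algebraMap R F ((u⁻¹ : Rˣ) : R) ^ p * (y ^ p - y)) := by
    have h1 : algebraMap R F ((u⁻¹ : Rˣ) : R) ^ p * algebraMap R F (u : R) ^ p = 1 := by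
      rw [← mul_pow, huv, one_pow]
    rw [hlamp, map_mul, map_pow]
    linear_combination (algebraMap R F ϖ ^ (p * e1) * algebraMap R F r0) * h1
  rw [e]
  exact hr0

end Fermat.Agent.LP.Dep
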