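import Fermat.Agent.GR.F.Frob

/-!
# LP-DEP: Laurent series in characteristic `p` and the substitution `q ↦ q ^ p`
-/

set_option autoImplicit false

noncomputable section

open ModularCurve

namespace Fermat.Agent.LP.Dep

open Fermat.Agent.GR

theorem Nu_eq_C_of_coeff {k : Type*} [CommRing k] (f : LaurentSeries k)
    (h : ∀ m : ℤ, m ≠ 0 → f.coeff m = 0) : f = HahnSeries.C (f.coeff 0) := by
  ext m
  by_cases hm : m = 0
  · subst hm
    simp [HahnSeries.C_apply]
  · rw [h m hm, HahnSeries.C_apply, HahnSeries.coeff_single_of_ne hm]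

theorem Nu_dvd_of_closed {k : Type*} [CommRing k] (p : ℕ) [NeZero p]
    (Y : Set (LaurentSeries k))
    (h : ∀ f' ∈ Y, ∃ f ∈ Y, ∃ c : k, f' = qExpand k p f + HahnSeries.C c) :
    ∀ n : ℕ, ∀ f ∈ Y, ∀ m : ℤ, m ≠ 0 → f.coeff m ≠ 0 → (p : ℤ) ^ n ∣ m := by
  intro n
  induction n with
  | zero => intro f _ m _ _; simp
  | succ n ih =>
    intro f' hf' m hm hc
    obtain ⟨f, hf, c, rfl⟩ := h f' hf'
    rw [HahnSeries.coeff_add, HahnSeries.C_apply, HahnSeries.coeff_single_of_ne hm,
      add_zero] at hc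
    by_cases hd : (p : ℤ) ∣ m
    · obtain ⟨m1, rfl⟩ := hd
      rw [qExpand_coeff_mul] at hc
      have hm1 : m1 ≠ 0 := by
        rintro rfl
        exact hm (mul_zero _)
      rw [pow_succ']
      exact mul_dvd_mul_left _ (ih f hf m1 hm1 hc)
    · exact absurd (qExpand_coeff_of_not_dvd p f hd) hc

/-- A set of series which is contained in its image under `q ↦ q ^ p` modulo constants consists of
constants.  (`ν(f) = min {v_p(m) : m ≠ 0, coeff_m f ≠ 0}` increases by one under `q ↦ q ^ p`.) -/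
theorem exists_C_of_qExpand_closed {k : Type*} [CommRing k] (p : ℕ) [NeZero p] (hp : 1 < p)
    (Y : Set (LaurentSeries k))
    (h : ∀ f' ∈ Y, ∃ f ∈ Y, ∃ c : k, f' = qExpand k p f + HahnSeries.C c) :
    ∀ f ∈ Y, ∃ c : k, f = HahnSeries.C c := by
  intro f hf
  refine ⟨f.coeff 0, Nu_eq_C_of_coeff f fun m hm => ?_⟩
  by_contra hc
  have h1 := Nu_dvd_of_closed p Y h m.natAbs f hf m hm hc
  have h2 : p ^ m.natAbs ∣ m.natAbs := by
    have := Int.natAbs_dvd_natAbs.2 h1
    rwa [Int.natAbs_pow, Int.natAbs_natCast] at this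
  have h3 : p ^ m.natAbs ≤ m.natAbs := Nat.le_of_dvd (Int.natAbs_pos.2 hm) h2
  exact absurd h3 (not_le.2 (Nat.lt_pow_self hp))

/-- `f(q ^ p)` constant implies `f` constant. -/
theorem exists_C_of_qExpand_eq_C {k : Type*} [CommRing k] (p : ℕ) [NeZero p]
    (f : LaurentSeries k) (c : k) (h : qExpand k p f = HahnSeries.C c) : f = HahnSeries.C c := by
  apply qExpand_injective p
  rw [h, qExpand_C]

/-- the constants are `p`-closed in `k((q))`. -/
theorem exists_C_of_pow_eq_C {k : Type*} [Field k] (p : ℕ) [Fact p.Prime] [CharP k p]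
    (f : LaurentSeries k) (c : k) (h : f ^ p = HahnSeries.C c) :
    ∃ c' : k, f = HahnSeries.C c' := by
  rw [pow_char_eq_qExpand p f] at h
  have h1 := exists_C_of_qExpand_eq_C p _ c h
  refine ⟨f.coeff 0, Nu_eq_C_of_coeff f fun m hm => ?_⟩
  have h2 := congrArg (fun g : LaurentSeries k => g.coeff m) h1
  simp only [coeffMap_coeff, HahnSeries.C_apply, HahnSeries.coeff_single_of_ne hm] at h2
  rw [frobenius_def] at h2
  exact pow_eq_zero_iff (Fact.out : p.Prime).ne_zero |>.1 h2

/-- `f(q ^ p)` is the `p`-th power of the inverse Frobenius twist of `f`. -/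
theorem qExpand_eq_pow {k : Type*} [Field k] (p : ℕ) [Fact p.Prime] [CharP k p] [PerfectRing k p]
    (f : LaurentSeries k) :
    qExpand k p f = (coeffMap ((frobeniusEquiv k p).symm : k →+* k) f) ^ p := by
  rw [pow_char_eq_qExpand p, coeffMap_coeffMap]
  have : (frobenius k p).comp ((frobeniusEquiv k p).symm : k →+* k) = RingHom.id k := by
    ext x
    simp
  rw [this, coeffMap_id]

end Fermat.Agent.LP.Dep
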