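import Fermat.Agent.LP.Dep.Defs
import Fermat.Agent.LP.Dep.Nu
import Fermat.Agent.LP.Dep.Lam
import Fermat.Agent.GR.D.Vert.GaussO

/-!
# LP-DEP: the Gauss ring `gaussO R N` of `FF L N` is a `DepSetting`
-/

set_option autoImplicit false
set_option synthInstance.maxHeartbeats 400000

noncomputable section

open ModularCurve

namespace Fermat.Agent.LP.Dep

open Fermat.Agent.GR Fermat.Agent.GR.D.Vert Fermat.Agent.S28

variable {L : Type*} [Field L] (R : ValuationSubring L) [IsDiscreteValuationRing R] (N : ℕ)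

/-- dictionary `CongP` / `IsGInt`. -/
theorem congP_gaussO_iff (ϖ : R) (i : ℕ) (x y : FF L N) :
    CongP ϖ (gaussO R N) i x y ↔
      IsGInt R (((x : LaurentSeries L) - (y : LaurentSeries L))
        / HahnSeries.C (algebraMap R L ϖ) ^ i) := by
  unfold CongP
  rw [mem_gaussO, IntermediateField.coe_div, AddSubgroupClass.coe_sub, IntermediateField.coe_pow,
    coe_algebraMap_C]

variable {R} in
theorem Inst_isGInt_sub {x y : LaurentSeries L} (hx : IsGInt R x) (hy : IsGInt R y) :
    IsGInt R (x - y) := by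
  rw [sub_eq_add_neg]
  exact hx.add hy.neg

variable {R} in
theorem Inst_gredFun_sub {x y : LaurentSeries L} (hx : IsGInt R x) (hy : IsGInt R y) :
    gredFun R (x - y) = gredFun R x - gredFun R y := by
  have h1 := gredFun_add (Inst_isGInt_sub hx hy) hy
  rw [sub_add_cancel] at h1
  rw [h1, add_sub_cancel_right]

theorem Inst_isGInt_C (r : R) : IsGInt R (HahnSeries.C (algebraMap R L r) : LaurentSeries L) := by
  rw [← coeffMap_C]
  exact isGInt_emb _

theorem Inst_gredFun_C (r : R) :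
    gredFun R (HahnSeries.C (algebraMap R L r) : LaurentSeries L) =
      HahnSeries.C (IsLocalRing.residue R r) := by
  rw [← coeffMap_C, ← coeffMap_C]
  exact gredFun_emb _

theorem Inst_charP (p : ℕ) [Fact p.Prime] (hpR : (p : R) ∈ IsLocalRing.maximalIdeal R) :
    CharP (IsLocalRing.ResidueField R) p := by
  rw [CharP.charP_iff_prime_eq_zero (Fact.out : p.Prime)]
  have h := (IsLocalRing.residue_eq_zero_iff (p : R)).mpr hpR
  rwa [map_natCast] at h

variable {R} in
/-- the Gauss valuation is discrete. -/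
theorem Inst_sep {ϖ : R} (hϖ : Irreducible ϖ) {x : LaurentSeries L} (hx : IsGInt R x)
    (hx0 : x ≠ 0) : ∃ n : ℕ, ¬ IsGInt R (x / HahnSeries.C (algebraMap R L ϖ) ^ n) := by
  obtain ⟨s, y, hs, hy⟩ := hx
  have hne := embL_C_ne_zero (L := L) hϖ
  have hs0 : embL R L s ≠ 0 := by
    intro h0
    have : s = 0 := embL_injective R L (by rw [h0, map_zero])
    exact hs (by rw [this, map_zero])
  have hy0 : y ≠ 0 := by
    rintro rfl
    rw [map_zero] at hy
    exact (mul_ne_zero hs0 hx0) hy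
  obtain ⟨m, y', hyy, hy'⟩ := exists_eq_C_pow_mul hϖ hy0
  have h1 : embL R L s * (x / HahnSeries.C (algebraMap R L ϖ) ^ m) = embL R L y' := by
    rw [mul_div_assoc', hy, hyy, map_mul, map_pow, coeffMap_C, mul_comm,
      mul_div_assoc, div_self (pow_ne_zero m hne), mul_one]
  have h2 : IsGInt R (x / HahnSeries.C (algebraMap R L ϖ) ^ m) := ⟨s, y', hs, h1⟩
  have h3 : gredFun R (x / HahnSeries.C (algebraMap R L ϖ) ^ m) ≠ 0 := by
    rw [gredFun_eq hs h1]
    exact div_ne_zero hy' hs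
  refine ⟨m + 1, fun h4 => h3 ((gredFun_eq_zero_iff hϖ h2).mpr ?_)⟩
  rw [div_div, ← pow_succ]
  exact h4

/-- congruence modulo `ϖ` is equality of the reductions. -/
theorem congP_one_gaussO_iff {ϖ : R} (hϖ : Irreducible ϖ) {x y : FF L N} (hx : x ∈ gaussO R N)
    (hy : y ∈ gaussO R N) :
    CongP ϖ (gaussO R N) 1 x y ↔
      gredFun R (x : LaurentSeries L) = gredFun R (y : LaurentSeries L) := by
  rw [congP_gaussO_iff, pow_one, ← gredFun_eq_zero_iff hϖ (Inst_isGInt_sub hx hy),
    Inst_gredFun_sub hx hy, sub_eq_zero]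

theorem depSetting_gaussO (p : ℕ) [Fact p.Prime] (hpR : (p : R) ∈ IsLocalRing.maximalIdeal R)
    (ζ : R) (hζ : IsPrimitiveRoot ζ p) {ϖ : R} (hϖ : Irreducible ϖ) {e1 : ℕ}
    (he1 : Associated (ζ - 1) (ϖ ^ e1)) :
    DepSetting ϖ (gaussO R N) p e1 (ζ - 1) := by
  haveI := Inst_charP R p hpR
  have hbase : ∀ r : R, algebraMap R (FF L N) r ∈ gaussO R N := by
    intro r
    rw [mem_gaussO, coe_algebraMap_C]
    exact Inst_isGInt_C R r
  refine ⟨gaussRing R N hϖ, hϖ, hbase, ?_, Fact.out, ?_, he1, exists_natCast_eq_lam p hpR ζ hζ, ?_⟩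
  · intro x hx hx0
    have hx0' : (x : LaurentSeries L) ≠ 0 := by
      intro h0
      exact hx0 (Subtype.ext h0)
    obtain ⟨n, hn⟩ := Inst_sep hϖ (mem_gaussO.mp hx) hx0'
    refine ⟨n, fun h => hn ?_⟩
    rw [mem_gaussO, IntermediateField.coe_div, IntermediateField.coe_pow, coe_algebraMap_C] at h
    exact h
  · rw [Nat.pos_iff_ne_zero]
    rintro rfl
    rw [pow_zero] at he1
    have hu : IsUnit (ζ - 1) := he1.symm.isUnit isUnit_one
    have h1 : (IsLocalRing.residue R ζ - 1) ^ p = 0 := by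
      rw [sub_pow_char, one_pow, ← map_pow, hζ.pow_eq_one, map_one, sub_self]
    have h2 : IsLocalRing.residue R (ζ - 1) = 0 := by
      rw [map_sub, map_one]
      exact pow_eq_zero_iff (Fact.out : p.Prime).ne_zero |>.mp h1
    rw [IsLocalRing.residue_eq_zero_iff] at h2
    exact (IsLocalRing.mem_maximalIdeal _).mp h2 hu
  · intro x hx r hc
    rw [congP_one_gaussO_iff R N hϖ ((gaussO R N).pow_mem hx p) (hbase r),
      IntermediateField.coe_pow, gredFun_pow (mem_gaussO.mp hx), coe_algebraMap_C,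
      Inst_gredFun_C] at hc
    obtain ⟨c', hc'⟩ := exists_C_of_pow_eq_C p _ _ hc
    obtain ⟨r', rfl⟩ := IsLocalRing.residue_surjective c'
    refine ⟨r', ?_⟩
    rw [congP_one_gaussO_iff R N hϖ hx (hbase r'), coe_algebraMap_C, Inst_gredFun_C]
    exact hc'

end Fermat.Agent.LP.Dep
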