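import Fermat.Agent.LP.Dep.Basic

/-!
# LP-DEP: expansions of `p`-th powers
-/

set_option autoImplicit false
set_option linter.unusedSectionVars false

namespace Fermat.Agent.LP.Dep

open Fermat.Agent.GR.E

variable {R L F : Type*} [CommRing R] [IsDomain R] [IsDiscreteValuationRing R]
  [Field L] [Algebra R L] [IsFractionRing R L] [Field F] [Algebra R F] [Algebra L F]
  [IsScalarTower R L F]
variable {ϖ : R} {𝒪 : ValuationSubring F} {p e1 : ℕ} {lam : R}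

/-- `(1 + x) ^ p = 1 + x ^ p + p x + p x ^ 2 r`. -/
theorem Pow_one_add_pow {A : Type*} [CommRing A] {p : ℕ} (hp : p.Prime) (x : A) :
    ∃ r : A, (1 + x) ^ p = 1 + x ^ p + p * x + p * x ^ 2 * r := by
  obtain ⟨k, rfl⟩ : ∃ k, p = k + 2 := ⟨p - 2, by have := hp.two_le; omega⟩
  refine ⟨∑ m ∈ Finset.range k, x ^ m * ((Nat.choose (k + 2) (m + 2) / (k + 2) : ℕ) : A), ?_⟩
  rw [add_comm 1 x, add_pow, Finset.sum_range_succ, Finset.sum_range_succ',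
    Finset.sum_range_succ', Finset.mul_sum]
  have h : ∀ m ∈ Finset.range k,
      x ^ (m + 1 + 1) * 1 ^ (k + 2 - (m + 1 + 1)) * ((Nat.choose (k + 2) (m + 1 + 1) : ℕ) : A) =
        ((k + 2 : ℕ) : A) * x ^ 2 * (x ^ m * ((Nat.choose (k + 2) (m + 2) / (k + 2) : ℕ) : A)) := by
    intro m hm
    have hm' : m < k := Finset.mem_range.1 hm
    have hdvd : (k + 2) ∣ Nat.choose (k + 2) (m + 2) :=
      hp.dvd_choose_self (by omega) (by omega)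
    obtain ⟨c, hc⟩ := hdvd
    rw [show m + 1 + 1 = m + 2 from rfl, hc, Nat.mul_div_cancel_left c (by omega), Nat.cast_mul]
    ring
  rw [Finset.sum_congr rfl h]
  simp only [Nat.choose_self, Nat.choose_zero_right, Nat.choose_one_right, one_pow, pow_zero,
    Nat.cast_one, mul_one, zero_add, pow_one, Nat.sub_self]
  ring

/-- a difference divisible by `ϖ ^ i` in `𝒪`. -/
theorem Pow_congP_of_eq {i : ℕ} {x y t : F} (ht : t ∈ 𝒪)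
    (h : x - y = algebraMap R F ϖ ^ i * t) : CongP ϖ 𝒪 i x y := by
  unfold CongP
  rw [h]
  by_cases h0 : algebraMap R F ϖ ^ i = 0
  · rw [h0, div_zero]
    exact 𝒪.zero_mem
  · rwa [mul_div_cancel_left₀ _ h0]

/-- `lam = ϖ ^ e1 * unit`. -/
theorem Pow_lam_eq (S : DepSetting ϖ 𝒪 p e1 lam) : ∃ u : R, lam = ϖ ^ e1 * u := by
  obtain ⟨u, hu⟩ := S.lam_eq
  exact ⟨((u⁻¹ : Rˣ) : R), by rw [← hu, mul_assoc, Units.mul_inv, mul_one]⟩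

/-- `v(p) ≥ (p - 1) e1`. -/
theorem Pow_p_eq (S : DepSetting ϖ 𝒪 p e1 lam) : ∃ r : R, (p : R) = ϖ ^ ((p - 1) * e1) * r := by
  obtain ⟨u, hu⟩ := Pow_lam_eq S
  obtain ⟨s, hs⟩ := S.p_eq
  refine ⟨u ^ (p - 1) * (-1 + lam * s), ?_⟩
  have hp : p = (p - 1) + 1 := by have := S.prime.pos; omega
  have h1 : lam ^ p = lam ^ (p - 1) * lam := by rw [← pow_succ, ← hp]
  have h2 : lam ^ (p - 1) = ϖ ^ ((p - 1) * e1) * u ^ (p - 1) := by
    rw [hu, mul_pow, ← pow_mul, mul_comm e1]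
  rw [hs, h1, h2]
  ring

/-- the image of `p` in `F`. -/
theorem Pow_p_eq' (S : DepSetting ϖ 𝒪 p e1 lam) :
    ∃ r ∈ 𝒪, (p : F) = algebraMap R F ϖ ^ ((p - 1) * e1) * r := by
  obtain ⟨r, hr⟩ := Pow_p_eq S
  refine ⟨algebraMap R F r, S.base r, ?_⟩
  rw [← map_pow, ← map_mul, ← hr, map_natCast]

/-- `(1 + x) ^ p = 1 + x ^ p + p x r` with `r ∈ 𝒪`. -/
theorem Pow_expand (hp : p.Prime) {x : F} (hx : x ∈ 𝒪) :
    ∃ r ∈ 𝒪, (1 + x) ^ p = 1 + x ^ p + p * x * r := by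
  obtain ⟨r, hr⟩ := exists_add_pow_prime_eq hp (1 : 𝒪) ⟨x, hx⟩
  refine ⟨r, r.2, ?_⟩
  have := congrArg (Subtype.val : 𝒪 → F) hr
  push_cast at this
  rw [this]
  ring

/-- `(1 + x) ^ p = 1 + x ^ p + p x + p x ^ 2 r` with `r ∈ 𝒪`. -/
theorem Pow_expand' (hp : p.Prime) {x : F} (hx : x ∈ 𝒪) :
    ∃ r ∈ 𝒪, (1 + x) ^ p = 1 + x ^ p + p * x + p * x ^ 2 * r := by
  obtain ⟨r, hr⟩ := Pow_one_add_pow hp (⟨x, hx⟩ : 𝒪)
  refine ⟨r, r.2, ?_⟩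
  have := congrArg (Subtype.val : 𝒪 → F) hr
  push_cast at this
  exact this

/-- `(1 + ϖ ^ a y) ^ p ≡ 1 + ϖ ^ (p a) y ^ p` modulo `ϖ ^ (p a + 1)` for `a < e1`. -/
theorem one_add_pow_congP (S : DepSetting ϖ 𝒪 p e1 lam) {a : ℕ} (ha : a < e1) {y : F}
    (hy : y ∈ 𝒪) :
    CongP ϖ 𝒪 (p * a + 1) ((1 + algebraMap R F ϖ ^ a * y) ^ p)
      (1 + algebraMap R F ϖ ^ (p * a) * y ^ p) := by
  have hP : algebraMap R F ϖ ∈ 𝒪 := S.base ϖ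
  obtain ⟨r, hr, h⟩ := Pow_expand (𝒪 := 𝒪) S.prime (𝒪.mul_mem _ _ (𝒪.pow_mem hP a) hy)
  obtain ⟨w, hw, hpw⟩ := Pow_p_eq' S
  -- the exponent
  obtain ⟨k, hk⟩ : ∃ k, (p - 1) * e1 + a = p * a + 1 + k := by
    obtain ⟨c, rfl⟩ : ∃ c, e1 = a + 1 + c := ⟨e1 - (a + 1), by omega⟩
    obtain ⟨q, rfl⟩ : ∃ q, p = q + 2 := ⟨p - 2, by have := S.prime.two_le; omega⟩
    refine ⟨q + (q + 1) * c, ?_⟩
    simp only [show q + 2 - 1 = q + 1 from rfl]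
    ring
  refine Pow_congP_of_eq (t := algebraMap R F ϖ ^ k * (w * y * r))
    (𝒪.mul_mem _ _ (𝒪.pow_mem hP k) (𝒪.mul_mem _ _ (𝒪.mul_mem _ _ hw hy) hr)) ?_
  have hpow : algebraMap R F ϖ ^ ((p - 1) * e1) * algebraMap R F ϖ ^ a =
      algebraMap R F ϖ ^ (p * a + 1) * algebraMap R F ϖ ^ k := by
    rw [← pow_add, ← pow_add, hk]
  have hpa : (algebraMap R F ϖ ^ a * y) ^ p = algebraMap R F ϖ ^ (p * a) * y ^ p := by
    rw [mul_pow, ← pow_mul, mul_comm a p]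
  rw [h, hpw, hpa]
  linear_combination (w * y * r) * hpow

/-- `(1 + ϖ ^ a y) ^ p ≡ 1` modulo `ϖ ^ j` as soon as `j ≤ p a` and `j ≤ (p - 1) e1 + a`. -/
theorem one_add_pow_congP_one (S : DepSetting ϖ 𝒪 p e1 lam) {a j : ℕ} (h1 : j ≤ p * a)
    (h2 : j ≤ (p - 1) * e1 + a) {y : F} (hy : y ∈ 𝒪) :
    CongP ϖ 𝒪 j ((1 + algebraMap R F ϖ ^ a * y) ^ p) 1 := by
  have hP : algebraMap R F ϖ ∈ 𝒪 := S.base ϖ
  obtain ⟨r, hr, h⟩ := Pow_expand (𝒪 := 𝒪) S.prime (𝒪.mul_mem _ _ (𝒪.pow_mem hP a) hy)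
  obtain ⟨w, hw, hpw⟩ := Pow_p_eq' S
  obtain ⟨k1, hk1⟩ := Nat.exists_eq_add_of_le h1
  obtain ⟨k2, hk2⟩ := Nat.exists_eq_add_of_le h2
  refine Pow_congP_of_eq
    (t := algebraMap R F ϖ ^ k1 * y ^ p + algebraMap R F ϖ ^ k2 * (w * y * r))
    (𝒪.add_mem _ _ (𝒪.mul_mem _ _ (𝒪.pow_mem hP k1) (𝒪.pow_mem hy p))
      (𝒪.mul_mem _ _ (𝒪.pow_mem hP k2) (𝒪.mul_mem _ _ (𝒪.mul_mem _ _ hw hy) hr))) ?_
  have hpow : algebraMap R F ϖ ^ ((p - 1) * e1) * algebraMap R F ϖ ^ a =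
      algebraMap R F ϖ ^ j * algebraMap R F ϖ ^ k2 := by
    rw [← pow_add, ← pow_add, hk2]
  have hpa : (algebraMap R F ϖ ^ a * y) ^ p =
      algebraMap R F ϖ ^ j * algebraMap R F ϖ ^ k1 * y ^ p := by
    rw [mul_pow, ← pow_mul, mul_comm a p, hk1, pow_add]
  rw [h, hpw, hpa]
  linear_combination (w * y * r) * hpow

/-- `(1 + lam y) ^ p ≡ 1 + lam ^ p (y ^ p - y)` modulo `ϖ ^ (p e1 + 1)`. -/
theorem one_add_lam_pow_congP (S : DepSetting ϖ 𝒪 p e1 lam) {y : F} (hy : y ∈ 𝒪) :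
    CongP ϖ 𝒪 (p * e1 + 1) ((1 + algebraMap R F lam * y) ^ p)
      (1 + algebraMap R F lam ^ p * (y ^ p - y)) := by
  have hP : algebraMap R F ϖ ∈ 𝒪 := S.base ϖ
  obtain ⟨r, hr, h⟩ := Pow_expand' (𝒪 := 𝒪) S.prime (𝒪.mul_mem _ _ (S.base lam) hy)
  obtain ⟨w, hw, hpw⟩ := Pow_p_eq' S
  obtain ⟨u, hu⟩ := Pow_lam_eq S
  obtain ⟨s, hs⟩ := S.p_eq
  have hu' : algebraMap R F lam = algebraMap R F ϖ ^ e1 * algebraMap R F u := by
    rw [hu, map_mul, map_pow]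
  have hs' : (p : F) = - algebraMap R F lam ^ (p - 1) + algebraMap R F lam ^ p * algebraMap R F s := by
    rw [← map_pow, ← map_pow, ← map_mul, ← map_neg, ← map_add, ← hs, map_natCast]
  have hp1 : p = (p - 1) + 1 := by have := S.prime.pos; omega
  obtain ⟨k, hk⟩ : ∃ k, e1 = k + 1 := ⟨e1 - 1, by have := S.e1_pos; omega⟩
  -- `lam ^ (p + 1) = ϖ ^ (p e1 + 1) * _`
  have hA : algebraMap R F lam ^ (p + 1) =
      algebraMap R F ϖ ^ (p * e1 + 1) * (algebraMap R F ϖ ^ k * algebraMap R F u ^ (p + 1)) := by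
    rw [hu', mul_pow, ← pow_mul, ← mul_assoc, ← pow_add]
    congr 2
    rw [hk]; ring
  -- `p lam ^ 2 = ϖ ^ (p e1 + 1) * _`
  have hB : (p : F) * algebraMap R F lam ^ 2 =
      algebraMap R F ϖ ^ (p * e1 + 1) * (algebraMap R F ϖ ^ k * (w * algebraMap R F u ^ 2)) := by
    have hexp : (p - 1) * e1 + e1 * 2 = p * e1 + 1 + k := by
      obtain ⟨q, hq⟩ : ∃ q, p = q + 1 := ⟨p - 1, hp1⟩
      rw [hq, hk]
      simp only [Nat.add_sub_cancel]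
      ring
    rw [hpw, hu', mul_pow, ← pow_mul, ← mul_assoc (algebraMap R F ϖ ^ (p * e1 + 1)), ← pow_add,
      ← hexp, pow_add]
    ring
  refine Pow_congP_of_eq
    (t := algebraMap R F ϖ ^ k * algebraMap R F u ^ (p + 1) * (algebraMap R F s * y) +
      algebraMap R F ϖ ^ k * (w * algebraMap R F u ^ 2) * (y ^ 2 * r)) ?_ ?_
  · refine 𝒪.add_mem _ _ (𝒪.mul_mem _ _ (𝒪.mul_mem _ _ (𝒪.pow_mem hP k)
      (𝒪.pow_mem (S.base u) _)) (𝒪.mul_mem _ _ (S.base s) hy)) ?_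
    exact 𝒪.mul_mem _ _ (𝒪.mul_mem _ _ (𝒪.pow_mem hP k) (𝒪.mul_mem _ _ hw
      (𝒪.pow_mem (S.base u) _))) (𝒪.mul_mem _ _ (𝒪.pow_mem hy 2) hr)
  · have e1' : (p : F) * (algebraMap R F lam * y) =
        - algebraMap R F lam ^ p * y + algebraMap R F lam ^ (p + 1) * (algebraMap R F s * y) := by
      have e2 : algebraMap R F lam ^ p = algebraMap R F lam ^ (p - 1) * algebraMap R F lam := by
        rw [← pow_succ, ← hp1]
      rw [pow_succ, hs']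
      rw [e2]
      ring
    have e3 : (p : F) * (algebraMap R F lam * y) ^ 2 * r =
        (p : F) * algebraMap R F lam ^ 2 * (y ^ 2 * r) := by ring
    rw [h, e1', e3, hA, hB, mul_pow]
    ring

end Fermat.Agent.LP.Dep
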