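import Fermat.Agent.LP.Dep.Basic

/-!
# LP-DEP: inertia acts through the cyclotomic character on the classes of top depth
-/

set_option autoImplicit false

namespace Fermat.Agent.LP.Dep

open Fermat.Agent.GR.E

variable {R L F : Type*} [CommRing R] [IsDomain R] [IsDiscreteValuationRing R]
  [Field L] [Algebra R L] [IsFractionRing R L] [Field F] [Algebra R F] [Algebra L F]
  [IsScalarTower R L F]
variable {ϖ : R} {𝒪 : ValuationSubring F} {p e1 : ℕ} {lam : R}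

omit [IsDomain R] [IsDiscreteValuationRing R] in
theorem Top_congP_iff (h0 : algebraMap R F ϖ ≠ 0) (i : ℕ) (x y : F) :
    CongP ϖ 𝒪 i x y ↔ ∃ t ∈ 𝒪, x = y + algebraMap R F ϖ ^ i * t := by
  have h1 : algebraMap R F ϖ ^ i ≠ 0 := pow_ne_zero _ h0
  constructor
  · intro h
    refine ⟨_, h, ?_⟩
    field_simp
    ring
  · rintro ⟨t, ht, rfl⟩
    have : (y + algebraMap R F ϖ ^ i * t - y) / algebraMap R F ϖ ^ i = t := by
      field_simp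
      ring
    show (y + algebraMap R F ϖ ^ i * t - y) / algebraMap R F ϖ ^ i ∈ 𝒪
    rw [this]
    exact ht

omit [Algebra R F] in
theorem Top_one_add_pow {x : F} (hx : x ∈ 𝒪) (n : ℕ) :
    ∃ y ∈ 𝒪, (1 + x) ^ n = 1 + n * x + x ^ 2 * y := by
  induction n with
  | zero => exact ⟨0, 𝒪.zero_mem, by simp⟩
  | succ n ih =>
    obtain ⟨y, hy, h⟩ := ih
    refine ⟨n + y + x * y, 𝒪.add_mem _ _ (𝒪.add_mem _ _ (natCast_mem 𝒪 n) hy) (𝒪.mul_mem _ _ hx hy), ?_⟩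
    rw [pow_succ, h]
    push_cast
    ring

/-- `ϖ ∣ p` in `R`. -/
theorem Top_dvd_p (S : DepSetting ϖ 𝒪 p e1 lam) : ϖ ∣ (p : R) := by
  have h1 : ϖ ∣ lam := (S.lam_eq.dvd_iff_dvd_right).2 (dvd_pow_self ϖ S.e1_pos.ne')
  obtain ⟨s, hs⟩ := S.p_eq
  rw [hs]
  have hp : p - 1 ≠ 0 := by have := S.prime.two_le; omega
  exact dvd_add ((dvd_neg).2 (dvd_pow h1 hp)) (Dvd.dvd.mul_right (dvd_pow h1 S.prime.ne_zero) s)

/-- Fermat's little theorem in `𝒪`. -/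
theorem Top_pow_congP (S : DepSetting ϖ 𝒪 p e1 lam) (cc : ℕ) :
    ∃ t ∈ 𝒪, (cc : F) ^ p = (cc : F) + algebraMap R F ϖ * t := by
  haveI : Fact p.Prime := ⟨S.prime⟩
  have h1 : ((cc ^ p : ℕ) : ZMod p) = ((cc : ℕ) : ZMod p) := by
    push_cast
    exact ZMod.pow_card _
  have h2 : (p : ℤ) ∣ ((cc : ℕ) : ℤ) - ((cc ^ p : ℕ) : ℤ) :=
    (Nat.modEq_iff_dvd).1 ((ZMod.natCast_eq_natCast_iff _ _ _).1 h1)
  obtain ⟨k, hk⟩ := h2
  obtain ⟨r, hr⟩ := Top_dvd_p S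
  refine ⟨-(algebraMap R F r * (k : F)), 𝒪.neg_mem _ (𝒪.mul_mem _ _ (S.base r) (intCast_mem 𝒪 k)), ?_⟩
  have h3 : ((cc : ℕ) : F) - (cc : F) ^ p = (p : F) * (k : F) := by
    have := congrArg (fun n : ℤ => (n : F)) hk
    push_cast at this
    exact this
  have h4 : (p : F) = algebraMap R F ϖ * algebraMap R F r := by
    rw [← map_mul, ← hr, map_natCast]
  rw [h4] at h3
  linear_combination -h3

/-- `τ` is trivial modulo `ϖ`, maps constants to constants and `τ lam = lam γ` with `γ ≡ cc`. -/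
theorem dep_succ_of_inertia (S : DepSetting ϖ 𝒪 p e1 lam) (τ : F →+* F)
    (hτ : ∀ x ∈ 𝒪, CongP ϖ 𝒪 1 (τ x) x)
    (hτL : ∀ c : L, ∃ c' : L, τ (algebraMap L F c) = algebraMap L F c')
    (cc : ℕ) (γ : F) (hγ : CongP ϖ 𝒪 1 γ (cc : F))
    (hlam : τ (algebraMap R F lam) = algebraMap R F lam * γ)
    {u : F} (hu : Dep L ϖ 𝒪 p (p * e1) u) :
    Dep L ϖ 𝒪 p (p * e1 + 1) (τ u / u ^ cc) := by
  have hP0 : algebraMap R F ϖ ≠ 0 := S.gauss.ne_zero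
  obtain ⟨c, z, hc0, hz0, hU⟩ := hu
  obtain ⟨c', hc'⟩ := hτL c
  have hcF : algebraMap L F c ≠ 0 := (map_ne_zero (algebraMap L F)).2 hc0
  have hc'0 : c' ≠ 0 := by
    rintro rfl
    rw [map_zero] at hc'
    exact hcF ((map_eq_zero τ).1 hc')
  have hcc : (cc : F) ∈ 𝒪 := natCast_mem 𝒪 cc
  set P : F := algebraMap R F ϖ with hP
  set Λ : F := algebraMap R F lam with hΛ
  set U : F := algebraMap L F c * z ^ p * u with hUdef
  -- `U = 1 + Λ ^ p g`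
  obtain ⟨g0, hg0, hUg0⟩ := (Top_congP_iff hP0 _ _ _).1 hU
  obtain ⟨v, hv⟩ := S.lam_eq
  set V : F := algebraMap R F (v : R) with hV
  set Vi : F := algebraMap R F ((v⁻¹ : Rˣ) : R) with hVi
  have hVmem : V ∈ 𝒪 := S.base _
  have hVimem : Vi ∈ 𝒪 := S.base _
  have hVVi : V * Vi = 1 := by
    rw [hV, hVi, ← map_mul, Units.mul_inv, map_one]
  have hΛV : Λ * V = P ^ e1 := by
    rw [hΛ, hV, ← map_mul, hv, map_pow]
  have hΛ' : Λ = P ^ e1 * Vi := by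
    rw [← hΛV, mul_assoc, hVVi, mul_one]
  have hg : V ^ p * g0 ∈ 𝒪 := 𝒪.mul_mem _ _ (pow_mem hVmem p) hg0
  set g : F := V ^ p * g0 with hgdef
  have hUg : U = 1 + Λ ^ p * g := by
    rw [hUg0, hgdef, ← mul_assoc, ← mul_pow, hΛV, ← pow_mul, mul_comm e1 p]
  -- apply `τ`
  have hτU : τ U = 1 + Λ ^ p * (γ ^ p * τ g) := by
    rw [hUg, map_add, map_one, map_mul, map_pow, hlam, mul_pow]
    ring
  obtain ⟨t1, ht1, hτg⟩ := (Top_congP_iff hP0 _ _ _).1 (hτ g hg)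
  obtain ⟨t3, ht3, hγp⟩ := (Top_congP_iff hP0 _ _ _).1 (CongP.pow S hγ hcc p)
  obtain ⟨t4, ht4, hccp⟩ := Top_pow_congP (F := F) S cc
  rw [pow_one] at hτg hγp
  obtain ⟨y, hy, hUcc⟩ := Top_one_add_pow (𝒪 := 𝒪) (x := Λ ^ p * g)
    (𝒪.mul_mem _ _ (pow_mem (S.base lam) p) hg) cc
  obtain ⟨k, hk⟩ : ∃ k, p * e1 = k + 1 :=
    ⟨p * e1 - 1, by have := Nat.mul_pos S.prime.pos S.e1_pos; omega⟩
  have hΛp : Λ ^ p = P ^ (p * e1) * Vi ^ p := by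
    rw [hΛ', mul_pow, ← pow_mul, mul_comm e1 p]
  have hPmem : P ∈ 𝒪 := S.base ϖ
  have hmain : CongP ϖ 𝒪 (p * e1 + 1) (τ U) (U ^ cc) := by
    rw [Top_congP_iff hP0]
    refine ⟨Vi ^ p * ((t3 + t4) * (g + P * t1) + cc * t1) -
      Vi ^ p * (P ^ k * Vi ^ p) * (g ^ 2 * y), ?_, ?_⟩
    · refine 𝒪.sub_mem ?_ ?_
      · refine 𝒪.mul_mem _ _ (pow_mem hVimem p) (𝒪.add_mem _ _ (𝒪.mul_mem _ _ (𝒪.add_mem _ _ ht3 ht4)
          (𝒪.add_mem _ _ hg (𝒪.mul_mem _ _ hPmem ht1))) (𝒪.mul_mem _ _ hcc ht1))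
      · exact 𝒪.mul_mem _ _ (𝒪.mul_mem _ _ (pow_mem hVimem p)
          (𝒪.mul_mem _ _ (pow_mem hPmem k) (pow_mem hVimem p)))
          (𝒪.mul_mem _ _ (pow_mem hg 2) hy)
    · rw [hτU, hUg, hUcc, hγp, hccp, hτg, hΛp, hk]
      ring
  have hU1 : CongP ϖ 𝒪 1 (U ^ cc) 1 := by
    have h1 : CongP ϖ 𝒪 1 U 1 := CongP.mono S (by omega) hU
    have h2 := CongP.pow S h1 𝒪.one_mem cc
    rwa [one_pow] at h2
  have hfin := CongP.div_one S hmain hU1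
  refine ⟨c' / c ^ cc, τ z / z ^ cc, div_ne_zero hc'0 (pow_ne_zero _ hc0),
    div_ne_zero ((map_ne_zero τ).2 hz0) (pow_ne_zero _ hz0), ?_⟩
  have e : algebraMap L F (c' / c ^ cc) * (τ z / z ^ cc) ^ p * (τ u / u ^ cc) = τ U / U ^ cc := by
    rw [hUdef, map_mul, map_mul, map_pow, hc', map_div₀, map_pow, div_pow, div_mul_div_comm,
      div_mul_div_comm]
    congr 1
    ring
  rw [e]
  exact hfin

end Fermat.Agent.LP.Dep
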