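import Fermat.Agent.LP.Dep.Exact

/-!
# LP-DEP: raising the depth
-/

set_option autoImplicit false
set_option linter.unusedSectionVars false
set_option linter.unusedVariables false

namespace Fermat.Agent.LP.Dep

open Fermat.Agent.GR.E

variable {R L F : Type*} [CommRing R] [IsDomain R] [IsDiscreteValuationRing R]
  [Field L] [Algebra R L] [IsFractionRing R L] [Field F] [Algebra R F] [Algebra L F]
  [IsScalarTower R L F]
variable {ϖ : R} {𝒪 : ValuationSubring F} {p e1 : ℕ} {lam : R}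

theorem Up_congP_iff (S : DepSetting ϖ 𝒪 p e1 lam) {i : ℕ} {x y : F} :
    CongP ϖ 𝒪 i x y ↔ ∃ t ∈ 𝒪, x - y = algebraMap R F ϖ ^ i * t := by
  have hP0 := S.gauss.ne_zero
  constructor
  · intro h
    refine ⟨_, h, ?_⟩
    field_simp
  · rintro ⟨t, ht, h⟩
    unfold CongP
    rw [h, mul_div_cancel_left₀ _ (pow_ne_zero _ hP0)]
    exact ht

/-- `T = ϖ ^ i * unit`. -/
def UpT (ϖ : R) (𝒪 : ValuationSubring F) (i : ℕ) (T : F) : Prop :=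
  ∃ U : F, U ∈ 𝒪 ∧ U⁻¹ ∈ 𝒪 ∧ U ≠ 0 ∧ T = algebraMap R F ϖ ^ i * U

theorem Up_upT_pow (i : ℕ) : UpT ϖ 𝒪 i (algebraMap R F ϖ ^ i) :=
  ⟨1, 𝒪.one_mem, by rw [inv_one]; exact 𝒪.one_mem, one_ne_zero, (mul_one _).symm⟩

theorem Up_upT_lam (S : DepSetting ϖ 𝒪 p e1 lam) :
    UpT ϖ 𝒪 (p * e1) (algebraMap R F lam ^ p) := by
  obtain ⟨u, hu⟩ := S.lam_eq
  have h1 : algebraMap R F ((u⁻¹ : Rˣ) : R) * algebraMap R F (u : R) = 1 := by
    rw [← map_mul, Units.inv_mul, map_one]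
  have hu0 : algebraMap R F ((u⁻¹ : Rˣ) : R) ≠ 0 := left_ne_zero_of_mul_eq_one h1
  have hinv : (algebraMap R F ((u⁻¹ : Rˣ) : R))⁻¹ = algebraMap R F (u : R) :=
    inv_eq_of_mul_eq_one_right h1
  refine ⟨algebraMap R F ((u⁻¹ : Rˣ) : R) ^ p, 𝒪.pow_mem (S.base _) p, ?_, pow_ne_zero _ hu0, ?_⟩
  · rw [← inv_pow, hinv]
    exact 𝒪.pow_mem (S.base _) p
  · have h2 : lam = ϖ ^ e1 * ((u⁻¹ : Rˣ) : R) := by
      rw [← hu, mul_assoc, Units.mul_inv, mul_one]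
    rw [h2, map_mul, map_pow, mul_pow, ← pow_mul, mul_comm e1 p]

theorem Up_T_mem (S : DepSetting ϖ 𝒪 p e1 lam) {i : ℕ} {T : F} (hT : UpT ϖ 𝒪 i T) : T ∈ 𝒪 := by
  obtain ⟨U, hU, -, -, rfl⟩ := hT
  exact 𝒪.mul_mem _ _ (𝒪.pow_mem S.gauss.mem i) hU

theorem Up_one_add (S : DepSetting ϖ 𝒪 p e1 lam) {i : ℕ} (hi0 : 0 < i) {T : F}
    (hT : UpT ϖ 𝒪 i T) {a : F} (ha : a ∈ 𝒪) : CongP ϖ 𝒪 i (1 + T * a) 1 := by
  obtain ⟨U, hU, -, -, rfl⟩ := hT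
  rw [Up_congP_iff S]
  exact ⟨U * a, 𝒪.mul_mem _ _ hU ha, by ring⟩

theorem Up_prod (S : DepSetting ϖ 𝒪 p e1 lam) {i : ℕ} (hi0 : 0 < i) {T : F}
    (hT : UpT ϖ 𝒪 i T) {a b : F} (ha : a ∈ 𝒪) (hb : b ∈ 𝒪) :
    CongP ϖ 𝒪 (i + 1) ((1 + T * a) * (1 + T * b)) (1 + T * (a + b)) := by
  obtain ⟨U, hU, -, -, rfl⟩ := hT
  obtain ⟨k, rfl⟩ : ∃ k, i = k + 1 := ⟨i - 1, by omega⟩
  rw [Up_congP_iff S]
  refine ⟨algebraMap R F ϖ ^ k * (U * U * (a * b)), ?_, by ring⟩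
  exact 𝒪.mul_mem _ _ (𝒪.pow_mem S.gauss.mem k) (𝒪.mul_mem _ _ (𝒪.mul_mem _ _ hU hU)
    (𝒪.mul_mem _ _ ha hb))

theorem Up_quot (S : DepSetting ϖ 𝒪 p e1 lam) {i : ℕ} (hi0 : 0 < i) {T : F}
    (hT : UpT ϖ 𝒪 i T) {g g' c : F} (hg : g ∈ 𝒪) (hg' : g' ∈ 𝒪)
    (h : CongP ϖ 𝒪 (i + 1) (c * (1 + T * g)) (1 + T * g')) :
    CongP ϖ 𝒪 (i + 1) c (1 + T * (g' - g)) := by
  have hA : CongP ϖ 𝒪 1 (1 + T * g) 1 := (Up_one_add S hi0 hT hg).mono S hi0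
  obtain ⟨hA0, hAinv⟩ := hA.inv_one S one_pos
  have hAi : (1 + T * g)⁻¹ ∈ 𝒪 := hAinv.mem S 𝒪.one_mem
  have h1 := Up_prod S hi0 hT (𝒪.sub_mem hg' hg) hg
  rw [sub_add_cancel] at h1
  have h2 := h.trans h1.symm
  rw [Up_congP_iff S] at h2 ⊢
  obtain ⟨t, ht, h3⟩ := h2
  refine ⟨t * (1 + T * g)⁻¹, 𝒪.mul_mem _ _ ht hAi, ?_⟩
  have h4 : c - (1 + T * (g' - g)) =
      (c * (1 + T * g) - (1 + T * (g' - g)) * (1 + T * g)) * (1 + T * g)⁻¹ := by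
    field_simp
  rw [h4, h3]
  ring

theorem Up_cancel (S : DepSetting ϖ 𝒪 p e1 lam) {i : ℕ} {T : F}
    (hT : UpT ϖ 𝒪 i T) {a b : F} (h : CongP ϖ 𝒪 (i + 1) (1 + T * a) (1 + T * b)) :
    CongP ϖ 𝒪 1 a b := by
  have hP0 := S.gauss.ne_zero
  obtain ⟨U, hU, hUi, hU0, rfl⟩ := hT
  rw [Up_congP_iff S] at h ⊢
  obtain ⟨t, ht, h3⟩ := h
  refine ⟨U⁻¹ * t, 𝒪.mul_mem _ _ hUi ht, ?_⟩
  have h4 : algebraMap R F ϖ ^ i * U * (a - b) = algebraMap R F ϖ ^ i * U *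
      (algebraMap R F ϖ ^ 1 * (U⁻¹ * t)) := by
    have : algebraMap R F ϖ ^ i * U * (a - b) =
        1 + algebraMap R F ϖ ^ i * U * a - (1 + algebraMap R F ϖ ^ i * U * b) := by ring
    rw [this, h3]
    field_simp
    ring
  exact mul_left_cancel₀ (mul_ne_zero (pow_ne_zero _ hP0) hU0) h4

/-- the general step: `u ≡ v₁ v₂ ^ p`, `v₁` a constant, both `≡ 1` modulo `ϖ`. -/
theorem Up_dep_of_cong (S : DepSetting ϖ 𝒪 p e1 lam) {j : ℕ} {u : F} (s : R) {x : F}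
    (hs : CongP ϖ 𝒪 1 (algebraMap R F s) 1) (hx : CongP ϖ 𝒪 1 x 1)
    (h : CongP ϖ 𝒪 j u (algebraMap R F s * x ^ p)) : Dep L ϖ 𝒪 p j u := by
  obtain ⟨hs0, -⟩ := hs.inv_one S one_pos
  obtain ⟨hx0, -⟩ := hx.inv_one S one_pos
  have hsL : algebraMap R L s ≠ 0 := by
    intro h0
    apply hs0
    rw [IsScalarTower.algebraMap_apply R L F, h0, map_zero]
  refine ⟨(algebraMap R L s)⁻¹, x⁻¹, inv_ne_zero hsL, inv_ne_zero hx0, ?_⟩
  have h1 : CongP ϖ 𝒪 1 (algebraMap R F s * x ^ p) 1 := by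
    have := hs.mul S (hx.pow S 𝒪.one_mem p) 𝒪.one_mem (𝒪.pow_mem 𝒪.one_mem p)
    rwa [one_pow, mul_one] at this
  have h2 := h.div_one S h1
  have h3 : algebraMap L F (algebraMap R L s)⁻¹ * x⁻¹ ^ p * u =
      u / (algebraMap R F s * x ^ p) := by
    rw [map_inv₀, ← IsScalarTower.algebraMap_apply R L F, inv_pow]
    field_simp
  rw [h3]
  exact h2

/-- a constant leading term can be removed. -/
theorem dep_succ_of_const (S : DepSetting ϖ 𝒪 p e1 lam) {i : ℕ} (hi0 : 0 < i) {u : F} (r : R)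
    (h : CongP ϖ 𝒪 (i + 1) u (1 + algebraMap R F ϖ ^ i * algebraMap R F r)) :
    Dep L ϖ 𝒪 p (i + 1) u := by
  refine Up_dep_of_cong S (1 + ϖ ^ i * r) (x := 1) ?_ (CongP.refl 1 1) ?_
  · rw [map_add, map_one, map_mul, map_pow]
    exact (Up_one_add S hi0 (Up_upT_pow i) (S.base r)).mono S hi0
  · rw [one_pow, mul_one, map_add, map_one, map_mul, map_pow]
    exact h

/-- a leading term (constant + `p`-th power) at a depth `p a < p e1` can be removed. -/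
theorem dep_succ_of_pow (S : DepSetting ϖ 𝒪 p e1 lam) {a : ℕ} (ha0 : 0 < a) (ha : a < e1) {u : F}
    (r : R) {y : F} (hy : y ∈ 𝒪)
    (h : CongP ϖ 𝒪 (p * a + 1) u
      (1 + algebraMap R F ϖ ^ (p * a) * (algebraMap R F r + y ^ p))) :
    Dep L ϖ 𝒪 p (p * a + 1) u := by
  have hpa : 0 < p * a := Nat.mul_pos S.prime.pos ha0
  have hs : algebraMap R F (1 + ϖ ^ (p * a) * r) =
      1 + algebraMap R F ϖ ^ (p * a) * algebraMap R F r := by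
    rw [map_add, map_one, map_mul, map_pow]
  refine Up_dep_of_cong S (1 + ϖ ^ (p * a) * r) (x := 1 + algebraMap R F ϖ ^ a * y) ?_ ?_ ?_
  · rw [hs]
    exact (Up_one_add S hpa (Up_upT_pow _) (S.base r)).mono S hpa
  · exact (Up_one_add S ha0 (Up_upT_pow _) hy).mono S ha0
  · rw [hs]
    refine h.trans ?_
    have h1 := Up_prod S hpa (Up_upT_pow (ϖ := ϖ) (𝒪 := 𝒪) (p * a)) (S.base r) (𝒪.pow_mem hy p)
    refine h1.symm.trans ?_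
    have hmem : 1 + algebraMap R F ϖ ^ (p * a) * algebraMap R F r ∈ 𝒪 :=
      𝒪.add_mem _ _ 𝒪.one_mem (𝒪.mul_mem _ _ (𝒪.pow_mem S.gauss.mem _) (S.base r))
    have hmem2 : (1 + algebraMap R F ϖ ^ a * y) ^ p ∈ 𝒪 :=
      𝒪.pow_mem (𝒪.add_mem _ _ 𝒪.one_mem (𝒪.mul_mem _ _ (𝒪.pow_mem S.gauss.mem _) hy)) p
    exact (CongP.refl _ _).mul S (one_add_pow_congP S ha hy).symm hmem hmem2

/-- a leading term (constant + `y ^ p - y`) at the top depth can be removed. -/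
theorem dep_succ_of_artinSchreier (S : DepSetting ϖ 𝒪 p e1 lam) {u : F} (r : R) {y : F}
    (hy : y ∈ 𝒪)
    (h : CongP ϖ 𝒪 (p * e1 + 1) u
      (1 + algebraMap R F lam ^ p * (algebraMap R F r + (y ^ p - y)))) :
    Dep L ϖ 𝒪 p (p * e1 + 1) u := by
  have hpe : 0 < p * e1 := Nat.mul_pos S.prime.pos S.e1_pos
  have hT := Up_upT_lam S
  have hs : algebraMap R F (1 + lam ^ p * r) =
      1 + algebraMap R F lam ^ p * algebraMap R F r := by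
    rw [map_add, map_one, map_mul, map_pow]
  have hlam : UpT ϖ 𝒪 e1 (algebraMap R F lam) := by
    obtain ⟨u, hu⟩ := S.lam_eq
    have h1 : algebraMap R F ((u⁻¹ : Rˣ) : R) * algebraMap R F (u : R) = 1 := by
      rw [← map_mul, Units.inv_mul, map_one]
    refine ⟨algebraMap R F ((u⁻¹ : Rˣ) : R), S.base _, ?_, left_ne_zero_of_mul_eq_one h1, ?_⟩
    · rw [inv_eq_of_mul_eq_one_right h1]
      exact S.base _
    · have h2 : lam = ϖ ^ e1 * ((u⁻¹ : Rˣ) : R) := by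
        rw [← hu, mul_assoc, Units.mul_inv, mul_one]
      conv_lhs => rw [h2]
      rw [map_mul, map_pow]
  refine Up_dep_of_cong S (1 + lam ^ p * r) (x := 1 + algebraMap R F lam * y) ?_ ?_ ?_
  · rw [hs]
    exact (Up_one_add S hpe hT (S.base r)).mono S hpe
  · exact (Up_one_add S S.e1_pos hlam hy).mono S S.e1_pos
  · rw [hs]
    refine h.trans ?_
    have hyy : y ^ p - y ∈ 𝒪 := 𝒪.sub_mem (𝒪.pow_mem hy p) hy
    have h1 := Up_prod S hpe hT (S.base r) hyy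
    refine h1.symm.trans ?_
    have hmem : 1 + algebraMap R F lam ^ p * algebraMap R F r ∈ 𝒪 :=
      𝒪.add_mem _ _ 𝒪.one_mem (𝒪.mul_mem _ _ (𝒪.pow_mem (S.base _) _) (S.base r))
    have hmem2 : (1 + algebraMap R F lam * y) ^ p ∈ 𝒪 :=
      𝒪.pow_mem (𝒪.add_mem _ _ 𝒪.one_mem (𝒪.mul_mem _ _ (S.base _) hy)) p
    exact (CongP.refl _ _).mul S (one_add_lam_pow_congP S hy).symm hmem hmem2

/-- the leading term is well defined: `p ∤ i`. -/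
theorem leading_unique (S : DepSetting ϖ 𝒪 p e1 lam) {i : ℕ} (hi0 : 0 < i) (hi : i < p * e1)
    (hpi : ¬ p ∣ i) {c : L} {z : F} (hc : c ≠ 0) (hz : z ≠ 0) {g g' : F} (hg : g ∈ 𝒪) (hg' : g' ∈ 𝒪)
    (h : CongP ϖ 𝒪 (i + 1) (algebraMap L F c * z ^ p * (1 + algebraMap R F ϖ ^ i * g))
      (1 + algebraMap R F ϖ ^ i * g')) :
    ∃ r : R, CongP ϖ 𝒪 1 (g' - g) (algebraMap R F r) := by
  have hT := Up_upT_pow (ϖ := ϖ) (𝒪 := 𝒪) i
  have h1 := Up_quot S hi0 hT hg hg' h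
  have h2 : CongP ϖ 𝒪 i (algebraMap L F c * z ^ p) 1 :=
    (h1.mono S (Nat.le_succ i)).trans (Up_one_add S hi0 hT (𝒪.sub_mem hg' hg))
  obtain ⟨r, y, -, hy0, h3⟩ := exact_depth S hi0 hi hc hz h2
  rw [hy0 hpi, zero_pow S.prime.ne_zero, add_zero] at h3
  exact ⟨r, Up_cancel S hT (h1.symm.trans h3)⟩

/-- the leading term is well defined: top depth. -/
theorem leading_unique_top (S : DepSetting ϖ 𝒪 p e1 lam)
    {c : L} {z : F} (hc : c ≠ 0) (hz : z ≠ 0) {g g' : F} (hg : g ∈ 𝒪) (hg' : g' ∈ 𝒪)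
    (h : CongP ϖ 𝒪 (p * e1 + 1) (algebraMap L F c * z ^ p * (1 + algebraMap R F lam ^ p * g))
      (1 + algebraMap R F lam ^ p * g')) :
    ∃ (r : R) (y : F), y ∈ 𝒪 ∧ CongP ϖ 𝒪 1 (g' - g) (algebraMap R F r + (y ^ p - y)) := by
  have hpe : 0 < p * e1 := Nat.mul_pos S.prime.pos S.e1_pos
  have hT := Up_upT_lam S
  have h1 := Up_quot S hpe hT hg hg' h
  have h2 : CongP ϖ 𝒪 (p * e1) (algebraMap L F c * z ^ p) 1 :=
    (h1.mono S (Nat.le_succ _)).trans (Up_one_add S hpe hT (𝒪.sub_mem hg' hg))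
  obtain ⟨r, y, hy, h3⟩ := exact_depth_top S hc hz h2
  exact ⟨r, y, hy, Up_cancel S hT (h1.symm.trans h3)⟩

end Fermat.Agent.LP.Dep
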